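import Fermat.Agent.LocalDuality.Duality.PGroupCase
import Fermat.Agent.LocalDuality.CyclicField
import Fermat.Agent.LocalDuality.NormIndex.Torsion

/-!
# `H²` of the cyclotomic twist of a local field is a line

For a `CycloField`, `exists_ne_zero_H2` shows that this `H²` is nonzero and `finrank_H2` that its
dimension is one; used in `Duality/Main`.
-/

set_option autoImplicit false
set_option linter.unusedSectionVars false

noncomputable section

open CategoryTheory groupCohomology Module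

namespace FLTAgent.LocalDuality

variable {q : ℕ} [Fact q.Prime] {p : ℕ} [Fact p.Prime] {G : Type} [Group G]

variable (p) in
/-- A local field with its cyclotomic character modulo `p`. -/
structure CycloField (j : G →* LocalGal q) (E : IntermediateField ℚ_[q] (PadicAlgCl q))
    (ζ : (PadicAlgCl q)ˣ) (ψ : G →* (ZMod p)ˣ) : Prop extends IsFieldGroup j E where
  prim : IsPrimitiveRoot ζ p
  apply_zeta : ∀ g, j g (ζ : PadicAlgCl q) = (ζ : PadicAlgCl q) ^ (ψ g : ZMod p).val

namespace CycloField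

variable {j : G →* LocalGal q} {E : IntermediateField ℚ_[q] (PadicAlgCl q)}
  {ζ : (PadicAlgCl q)ˣ} {ψ : G →* (ZMod p)ˣ} (D : CycloField p j E ζ ψ)

include D in
theorem eq_one_of_fix {g : G} (hg : j g (ζ : PadicAlgCl q) = ζ) : ψ g = 1 := by
  rw [D.apply_zeta] at hg
  have h1 : ζ ^ (ψ g : ZMod p).val = ζ ^ 1 := by
    rw [pow_one]; exact Units.ext ((Units.val_pow_eq_pow_val _ _).trans hg)
  have h2 := D.prim.pow_inj (ZMod.val_lt _) (Fact.out : p.Prime).one_lt h1
  exact Units.ext (ZMod.val_injective p (h2.trans (by rw [Units.val_one, ZMod.val_one])))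

include D in
theorem fix_of_eq_one {g : G} (hg : ψ g = 1) : j g (ζ : PadicAlgCl q) = ζ := by
  rw [D.apply_zeta, hg, Units.val_one, ZMod.val_one, pow_one]

include D in
theorem exists_level_ker : ∃ F : IntermediateField ℚ (AlgebraicClosure ℚ),
    FiniteDimensional ℚ F ∧ levelSubgroup (locR j) F ≤ ψ.ker := by
  obtain ⟨F, hF, h⟩ := exists_level_fix j (Set.finite_singleton (ζ : PadicAlgCl q))
  exact ⟨F, hF, fun s hs => D.eq_one_of_fix (h s hs _ rfl)⟩

include D in
theorem smoothChar : SmoothChar (locR j) ψ := by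
  obtain ⟨F, hF, h⟩ := D.exists_level_ker
  exact ⟨F, hF, fun s hs => h hs⟩

include D in
theorem smul_zetaPow_char (g : G) (i : ZMod p) :
    g • zetaPow j D.prim i = zetaPow j D.prim ((ψ g : ZMod p) * i) := by
  obtain ⟨n, rfl⟩ := ZMod.natCast_zmod_surjective i
  conv_rhs => rw [← ZMod.natCast_zmod_val (ψ g : ZMod p), ← Nat.cast_mul]
  rw [zetaPow_natCast, zetaPow_natCast]
  refine congrArg (toAU j) (Units.ext ?_)
  show j g ((ofAU j (toAU j (ζ ^ n)) : (PadicAlgCl q)ˣ) : PadicAlgCl q) = _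
  rw [ofAU_toAU, Units.val_pow_eq_pow_val, map_pow, D.apply_zeta, Units.val_pow_eq_pow_val,
    ← pow_mul]

/-- The cyclotomic data of an open subgroup. -/
theorem exists_sub (D : CycloField p j E ζ ψ) (H : Subgroup G)
    {F : IntermediateField ℚ (AlgebraicClosure ℚ)} (hF : FiniteDimensional ℚ F)
    (hle : levelSubgroup (locR j) F ≤ H) :
    ∃ E', E ≤ E' ∧ CycloField p (j.comp H.subtype) E' ζ (ψ.comp H.subtype) := by
  obtain ⟨E', hEE', h⟩ := D.toIsFieldGroup.exists_sub H hF hle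
  exact ⟨E', hEE', { toIsFieldGroup := h, prim := D.prim, apply_zeta := fun g => D.apply_zeta g }⟩

/-- If the character is trivial the field contains `μ_p`. -/
theorem kummerField (D : CycloField p j E ζ ψ) (h1 : ∀ g, ψ g = 1) : KummerField p j E ζ :=
  { toIsFieldGroup := D.toIsFieldGroup
    prim := D.prim
    mem := D.toIsFieldGroup.mem_of_fixed fun g => D.fix_of_eq_one (h1 g) }

include D in
theorem not_dvd_index_ker : ¬ p ∣ ψ.ker.index := by
  rw [Subgroup.index_ker]
  intro h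
  have h1 : Nat.card ψ.range ∣ p - 1 := by
    have := Subgroup.card_subgroup_dvd_card ψ.range
    rwa [Nat.card_eq_fintype_card (α := (ZMod p)ˣ), ZMod.card_units] at this
  have h2 := Nat.le_of_dvd (Nat.sub_pos_of_lt (Fact.out : p.Prime).one_lt) (h.trans h1)
  have := (Fact.out : p.Prime).pos
  omega

end CycloField

/-- A maximal root of unity of `p`-power order. -/
theorem KummerField.exists_maximal_root {j : G →* LocalGal q}
    {E : IntermediateField ℚ_[q] (PadicAlgCl q)} {ζ : (PadicAlgCl q)ˣ}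
    (K : KummerField p j E ζ) :
    ∃ (m : ℕ) (η : Additive Eˣ), IsPrimitiveRoot ((η.toMul : Eˣ) : E) (p ^ (m + 1)) ∧
      ∀ x : E, ¬ IsPrimitiveRoot x (p ^ (m + 2)) := by
  classical
  have := K.finite
  have hex := local_exists_no_primitiveRoot (q := q) p E
  set n := Nat.find hex with hn
  have h0 : n ≠ 0 := fun h => by
    have := Nat.find_spec hex
    rw [← hn, h, pow_zero] at this
    exact this 1 IsPrimitiveRoot.one
  have h1 : n ≠ 1 := fun h => by
    have := Nat.find_spec hex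
    rw [← hn, h, pow_one] at this
    exact this ⟨(ζ : PadicAlgCl q), K.mem⟩ (IsPrimitiveRoot.of_map_of_injective (f := E.val)
      (IsPrimitiveRoot.coe_units_iff.mpr K.prim) E.val.injective)
  obtain ⟨m, hm⟩ : ∃ m, n = m + 2 := ⟨n - 2, by omega⟩
  have hspec := Nat.find_spec hex
  have hmin := Nat.find_min hex (show m + 1 < n by omega)
  push Not at hmin
  obtain ⟨x, hx⟩ := hmin
  obtain ⟨u, rfl⟩ := hx.isUnit (pow_pos (Fact.out : p.Prime).pos _).ne'
  refine ⟨m, Additive.ofMul u, hx, ?_⟩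
  rw [← hn, hm] at hspec
  exact hspec

namespace CycloField

variable {j : G →* LocalGal q} {E : IntermediateField ℚ_[q] (PadicAlgCl q)}
  {ζ : (PadicAlgCl q)ˣ} {ψ : G →* (ZMod p)ˣ} (D : CycloField p j E ζ ψ)
  {E₀ : IntermediateField ℚ_[q] (PadicAlgCl q)}
  (K : KummerField p (j.comp ψ.ker.subtype) E₀ ζ)

include D in
/-- Kummer characters of elements of `E` transform by the cyclotomic character. -/
theorem kv_conj (_hle : E ≤ E₀) {b : Additive E₀ˣ}
    (hb : ((b.toMul : E₀ˣ) : E₀).1 ∈ E) (g : G) (h : ψ.ker) :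
    K.kv b ⟨g * (h : G) * g⁻¹, ψ.normal_ker.conj_mem h h.2 g⟩ = (ψ g : ZMod p) * K.kv b h := by
  set jH := j.comp ψ.ker.subtype
  set β := KummerField.root p jH (KummerField.incl (j := jH) b)
  have hβ : p • β = KummerField.incl (j := jH) b := KummerField.nsmul_root _
  set β' : AlgClUnits j := toAU j (ofAU jH β)
  have hβ' : p • (toAU jH (ofAU j (g • β'))) = KummerField.incl (j := jH) b := by
    have h1 : p • β' = toAU j (ofAU jH (KummerField.incl (j := jH) b)) :=
      congrArg (fun u => toAU j (ofAU jH u)) hβ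
    have h2 : g • (p • β') = toAU j (ofAU jH (KummerField.incl (j := jH) b)) := by
      rw [h1]
      exact congrArg (toAU j) (Units.ext (D.toIsFieldGroup.apply_of_mem g hb))
    rw [smul_comm] at h2
    exact congrArg (fun u => toAU jH (ofAU j u)) h2
  apply zetaPow_injective j D.prim
  have e1 : zetaPow j D.prim (K.kv b h) = (h : G) • β' - β' := K.zetaPow_kv b h hβ
  have e2 : zetaPow j D.prim (K.kv b ⟨g * (h : G) * g⁻¹, ψ.normal_ker.conj_mem h h.2 g⟩)
      = (g * (h : G) * g⁻¹) • (g • β') - g • β' :=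
    K.zetaPow_kv b ⟨g * (h : G) * g⁻¹, _⟩ hβ'
  rw [e2, ← D.smul_zetaPow_char, e1, smul_sub, smul_smul, inv_mul_cancel_right, mul_smul]

include D in
/-- The Kummer character of a root of unity is invariant under conjugation. -/
theorem kv_conj_root {m : ℕ} {η : Additive E₀ˣ}
    (hη : IsPrimitiveRoot ((η.toMul : E₀ˣ) : E₀) (p ^ (m + 1))) (g : G) (h : ψ.ker) :
    K.kv η ⟨g * (h : G) * g⁻¹, ψ.normal_ker.conj_mem h h.2 g⟩ = K.kv η h := by
  set jH := j.comp ψ.ker.subtype
  have : NeZero p := ⟨(Fact.out : p.Prime).ne_zero⟩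
  set β := KummerField.root p jH (KummerField.incl (j := jH) η)
  have hβ : p • β = KummerField.incl (j := jH) η := KummerField.nsmul_root _
  set β' : AlgClUnits j := toAU j (ofAU jH β)
  have hη' : IsPrimitiveRoot (((η.toMul : E₀ˣ) : E₀) : PadicAlgCl q) (p ^ (m + 1)) :=
    hη.map_of_injective (f := E₀.val) E₀.val.injective
  have hβη : (ofAU jH β : PadicAlgCl q) ^ p = (((η.toMul : E₀ˣ) : E₀) : PadicAlgCl q) := by
    have h1 := congrArg (fun u => (ofAU jH u : PadicAlgCl q)) hβ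
    simp only [ofAU_nsmul, Units.val_pow_eq_pow_val] at h1
    exact h1
  have hprim : IsPrimitiveRoot (ofAU jH β : PadicAlgCl q) (p ^ (m + 2)) := by
    rw [IsPrimitiveRoot.iff_orderOf]
    refine orderOf_eq_prime_pow ?_ ?_
    · rw [pow_succ', pow_mul, hβη]
      exact hη'.pow_ne_one_of_pos_of_lt (pow_pos (Fact.out : p.Prime).pos _).ne'
        (Nat.pow_lt_pow_succ (Fact.out : p.Prime).one_lt)
    · rw [pow_succ', pow_mul, hβη]
      exact hη'.pow_eq_one
  have : NeZero (p ^ (m + 2)) := ⟨(pow_pos (Fact.out : p.Prime).pos _).ne'⟩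
  obtain ⟨a, -, ha⟩ := hprim.eq_pow_of_pow_eq_one
    (ξ := j g (ofAU jH β : PadicAlgCl q)) (by rw [← map_pow, hprim.pow_eq_one, map_one])
  obtain ⟨c, -, hc⟩ := hprim.eq_pow_of_pow_eq_one (ξ := (ζ : PadicAlgCl q)) (by
    rw [show p ^ (m + 2) = p * p ^ (m + 1) from pow_succ' p (m + 1), pow_mul,
      ← Units.val_pow_eq_pow_val, D.prim.pow_eq_one, Units.val_one, one_pow])
  have hga : g • β' = a • β' := congrArg (toAU j) (Units.ext (by
    show j g (ofAU jH β : PadicAlgCl q) = _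
    rw [← ha]; exact (Units.val_pow_eq_pow_val _ _).symm))
  have hζc : toAU j ζ = c • β' := congrArg (toAU j) (Units.ext (by
    rw [← hc]; exact (Units.val_pow_eq_pow_val _ _).symm))
  have hψa : (ψ g : ZMod p) = a := by
    apply zetaPow_injective j D.prim
    have h1 := D.smul_zetaPow_char g 1
    rw [mul_one] at h1
    rw [← h1, show zetaPow j D.prim 1 = toAU j ζ by
      rw [← Nat.cast_one, zetaPow_natCast, pow_one], hζc, smul_comm, hga]
    have h2 : zetaPow j D.prim (a : ZMod p) = a • toAU j ζ := zetaPow_natCast j D.prim a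
    rw [h2, hζc, smul_comm]
  have e1 : zetaPow j D.prim (K.kv η h) = (h : G) • β' - β' := K.zetaPow_kv η h hβ
  set k' := K.kv η ⟨g * (h : G) * g⁻¹, ψ.normal_ker.conj_mem h h.2 g⟩
  have e2 : zetaPow j D.prim k' = (g * (h : G) * g⁻¹) • β' - β' :=
    K.zetaPow_kv η ⟨g * (h : G) * g⁻¹, _⟩ hβ
  have e3 : a • zetaPow j D.prim k' = g • zetaPow j D.prim (K.kv η h) := by
    rw [e1, e2, smul_sub, smul_comm, ← hga, smul_smul, inv_mul_cancel_right, mul_smul, ← smul_sub]
  rw [← map_nsmul, D.smul_zetaPow_char, nsmul_eq_mul, ← hψa] at e3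
  exact mul_left_cancel₀ (Units.ne_zero _) (zetaPow_injective j D.prim e3)

include D in
theorem exists_sym_ne_zero (hle : E ≤ E₀) {m : ℕ} {η : Additive E₀ˣ}
    (hη : IsPrimitiveRoot ((η.toMul : E₀ˣ) : E₀) (p ^ (m + 1)))
    (hmax : ∀ x : E₀, ¬ IsPrimitiveRoot x (p ^ (m + 2))) :
    ∃ b : Additive E₀ˣ, ((b.toMul : E₀ˣ) : E₀).1 ∈ E ∧ K.sym b η ≠ 0 := by
  classical
  by_contra hall
  push Not at hall
  set jH := j.comp ψ.ker.subtype
  obtain ⟨F, hF, hFk⟩ := D.exists_level_ker
  have : Finite (G ⧸ levelSubgroup (locR j) F) := finite_quotient_level j hF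
  have : (levelSubgroup (locR j) F).FiniteIndex := ⟨Subgroup.index_ne_zero_of_finite⟩
  have : ψ.ker.FiniteIndex := Subgroup.finiteIndex_of_le hFk
  have : Finite (G ⧸ ψ.ker) := Subgroup.finite_quotient_of_finiteIndex
  let : Fintype (G ⧸ ψ.ker) := Fintype.ofFinite _
  have hne : K.kappa η ≠ 0 := by
    intro h0
    obtain ⟨c, hc⟩ := K.exists_nsmul_of_kv_eq_zero (b := η) fun g =>
      congrArg (fun z : levelCocycles₁ (locR jH) (trivRep ψ.ker p) =>
        (z.1 : ψ.ker → trivRep ψ.ker p) g) h0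
    refine hmax ((c.toMul : E₀ˣ) : E₀) ?_
    have hcη : (((c.toMul : E₀ˣ) : E₀)) ^ p = ((η.toMul : E₀ˣ) : E₀) := by
      rw [← hc, toMul_nsmul, Units.val_pow_eq_pow_val]
    rw [IsPrimitiveRoot.iff_orderOf]
    refine orderOf_eq_prime_pow ?_ ?_
    · rw [pow_succ', pow_mul, hcη]
      exact hη.pow_ne_one_of_pos_of_lt (pow_pos (Fact.out : p.Prime).pos _).ne'
        (Nat.pow_lt_pow_succ (Fact.out : p.Prime).one_lt)
    · rw [pow_succ', pow_mul, hcη]
      exact hη.pow_eq_one
  obtain ⟨σ₀, hσ₀⟩ := K.exists_chi_eq_one hne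
  have hkv0 : ∀ i : ℕ, K.kv η (σ₀ ^ i) = (i : ZMod p) := fun i => by
    rw [← K.toAdd_chi, map_pow, toAdd_pow, hσ₀, nsmul_one]
  -- the corestricted character
  let χ : G →* Multiplicative (ZMod p) := MonoidHom.mk'
    (fun g => Multiplicative.ofAdd (∑ x : G ⧸ ψ.ker, K.kv η (cosetShift ψ.ker g x)))
    fun g g' => by
      rw [← ofAdd_add]
      refine congrArg _ ?_
      simp only [cosetShift_mul, K.kv_mul, Finset.sum_add_distrib]
      exact congrArg (· + _) (sum_smul_eq g' fun x => K.kv η (cosetShift ψ.ker g x))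
  set d : ZMod p := (ψ.ker.index : ZMod p) with hd
  have hd0 : d ≠ 0 := by
    rw [hd, Ne, ZMod.natCast_eq_zero_iff]; exact D.not_dvd_index_ker
  have hχ : ∀ h : ψ.ker, (χ (h : G)).toAdd = d * K.kv η h := by
    intro h
    show ∑ x : G ⧸ ψ.ker, K.kv η (cosetShift ψ.ker (h : G) x) = _
    have hterm : ∀ x : G ⧸ ψ.ker, K.kv η (cosetShift ψ.ker (h : G) x) = K.kv η h := by
      intro x
      have hfix : (h : G) • x = x := by
        induction x using QuotientGroup.induction_on with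
        | H a =>
          refine QuotientGroup.eq.mpr ?_
          simpa [mul_assoc] using ψ.normal_ker.conj_mem _ (inv_mem h.2) a⁻¹
      refine Eq.trans (congrArg (K.kv η) (Subtype.ext ?_)) (D.kv_conj_root K hη x.out⁻¹ h)
      show ((h : G) • x).out⁻¹ * (h : G) * x.out = _
      rw [hfix]
      simp only [inv_inv]
    simp only [hterm, Finset.sum_const, Finset.card_univ, nsmul_eq_mul, hd, Subgroup.index,
      Nat.card_eq_fintype_card]
  have hχlev : IsLevelConstant₁ (locR j) χ :=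
    (isLevelConstant₁_cor₁ (A := trivRep G p) (r := locR j) ⟨F, hF, hFk⟩
      (f := K.kv η) (K.kv_level η)).comp Multiplicative.ofAdd
  set σ' : ψ.ker := σ₀ ^ (d⁻¹).val
  have hσ' : (χ (σ' : G)).toAdd = 1 := by
    rw [hχ, hkv0, ZMod.natCast_zmod_val, mul_inv_cancel₀ hd0]
  obtain ⟨b, hb⟩ := D.toIsFieldGroup.exists_not_norm χ hχlev hσ'
  set b₀ : Additive E₀ˣ :=
    Additive.ofMul (Units.map (IntermediateField.inclusion hle : E →* E₀) b.toMul)
  have hb₀ : ((b₀.toMul : E₀ˣ) : E₀).1 ∈ E := ((b.toMul : Eˣ) : E).2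
  obtain ⟨c, hc, hbc⟩ := (K.sym_eq_zero_iff b₀ hσ₀).1 (hall b₀ hb₀)
  set c' : AlgClUnits j := toAU j (ofAU jH c)
  set B : AlgClUnits j := KummerField.incl (j := j) b
  have hB : B = ∑ i ∈ Finset.range p, ((σ₀ ^ i : ψ.ker) : G) • c' := by
    have hsum := congrArg (fun u => toAU j (ofAU jH u)) hbc
    refine Eq.trans hsum ?_
    simp only [ofAU_sum]
    exact (map_prod ({ toFun := fun u => toAU j u, map_one' := rfl, map_mul' := fun _ _ => rfl } :
      (PadicAlgCl q)ˣ →* Multiplicative (AlgClUnits j)) _ _)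
  have hfixB : ∀ g : G, g • B = B := fun g =>
    congrArg (toAU j) (Units.ext (D.toIsFieldGroup.apply_of_mem g ((b.toMul : Eˣ) : E).2))
  have hcfix : ∀ u : ψ.ker, K.kv η u = 0 → (u : G) • c' = c' := fun u hu =>
    congrArg (fun v => toAU j (ofAU jH v)) (hc u (MonoidHom.mem_ker.mpr
      (Multiplicative.toAdd.injective hu)))
  have hpow_fix : ∀ u : ψ.ker, (u : G) • c' = ((σ₀ ^ (K.kv η u).val : ψ.ker) : G) • c' := by
    intro u
    have hmem : K.kv η ((σ₀ ^ (K.kv η u).val)⁻¹ * u) = 0 := by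
      rw [K.kv_mul]
      have h1 := K.kv_mul η (σ₀ ^ (K.kv η u).val)⁻¹ (σ₀ ^ (K.kv η u).val)
      rw [inv_mul_cancel, hkv0, ZMod.natCast_zmod_val] at h1
      have h11 := K.kv_mul η 1 1
      rw [one_mul, left_eq_add] at h11
      rw [h11] at h1
      linear_combination -h1
    conv_lhs => rw [← mul_inv_cancel_left (σ₀ ^ (K.kv η u).val) u, Subgroup.coe_mul, mul_smul,
      hcfix _ hmem]
  -- coset representatives in the kernel of `χ`
  let t : G ⧸ ψ.ker → G := fun x =>
    x.out * ((σ₀ ^ (-(χ x.out).toAdd * d⁻¹).val : ψ.ker) : G)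
  have htx : ∀ x : G ⧸ ψ.ker, (t x : G ⧸ ψ.ker) = x := fun x => by
    refine (QuotientGroup.mk_mul_of_mem x.out (SetLike.coe_mem _)).trans ?_
    exact QuotientGroup.out_eq' x
  have htker : ∀ x, (χ (t x)).toAdd = 0 := fun x => by
    show (χ (x.out * _)).toAdd = 0
    rw [map_mul, toAdd_mul, hχ, hkv0, ZMod.natCast_zmod_val]
    field_simp
    ring
  set C : AlgClUnits j := ∑ x : G ⧸ ψ.ker, t x • c'
  have hCfix : ∀ g ∈ χ.ker, g • C = C := by
    intro g hg
    refine Finset.smul_sum.trans ((Finset.sum_congr rfl fun x _ => ?_).trans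
      (sum_smul_eq g fun x => t x • c'))
    have hmem : (t (g • x))⁻¹ * (g * t x) ∈ ψ.ker := QuotientGroup.eq.mp (by
      rw [htx]
      exact (congrArg (g • ·) (htx x)).symm.trans rfl)
    have hz : K.kv η ⟨_, hmem⟩ = 0 := by
      have h1 := hχ ⟨_, hmem⟩
      rw [map_mul χ, map_mul χ, map_inv χ, toAdd_mul, toAdd_mul, toAdd_inv, htker, htker,
        show (χ g).toAdd = 0 from congrArg Multiplicative.toAdd hg, neg_zero, add_zero, add_zero,
        eq_comm, mul_eq_zero] at h1
      exact h1.resolve_left hd0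
    have h2 := congrArg (t (g • x) • ·) (hcfix _ hz)
    simp only [smul_smul, mul_inv_cancel_left] at h2
    rw [smul_smul]
    exact h2
  have hnormC : ψ.ker.index • B = ∑ i ∈ Finset.range p, (σ' : G) ^ i • C := by
    simp only [C, Finset.smul_sum]
    rw [Finset.sum_comm, Subgroup.index, Nat.card_eq_fintype_card, ← Finset.card_univ,
      ← Finset.sum_const]
    refine Finset.sum_congr rfl fun x _ => ?_
    have hterm : ∀ i : ℕ, (σ' : G) ^ i • t x • c'
        = t x • ((σ₀ ^ ((i : ZMod p) * d⁻¹).val : ψ.ker) : G) • c' := by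
      intro i
      have e : (σ' : G) ^ i * t x = t x * ((t x)⁻¹ * ((σ' ^ i : ψ.ker) : G) * t x) := by
        rw [mul_assoc (t x)⁻¹, mul_inv_cancel_left]
        rfl
      have hval : K.kv η ⟨(t x)⁻¹ * ((σ' ^ i : ψ.ker) : G) * t x,
          by simpa using ψ.normal_ker.conj_mem _ (σ' ^ i).2 (t x)⁻¹⟩ = (i : ZMod p) * d⁻¹ := by
        refine Eq.trans (congrArg (K.kv η) (Subtype.ext ?_))
          ((D.kv_conj_root K hη (t x)⁻¹ (σ' ^ i)).trans ?_)
        · simp only [inv_inv]
        · rw [← pow_mul, hkv0, Nat.cast_mul, ZMod.natCast_zmod_val, mul_comm]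
      rw [smul_smul, e, mul_smul, ← hval]
      exact congrArg (t x • ·) (hpow_fix ⟨_, _⟩)
    simp only [hterm, ← Finset.smul_sum]
    refine Eq.trans (hfixB (t x)).symm (congrArg (t x • ·) (hB.trans ?_))
    refine Finset.sum_bij' (fun i _ => ((i : ZMod p) * d).val) (fun i _ => ((i : ZMod p) * d⁻¹).val)
      (fun i _ => Finset.mem_range.mpr (ZMod.val_lt _))
      (fun i _ => Finset.mem_range.mpr (ZMod.val_lt _)) ?_ ?_ ?_
    · intro i hi
      simp [mul_assoc, mul_inv_cancel₀ hd0, ZMod.val_natCast,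
        Nat.mod_eq_of_lt (Finset.mem_range.mp hi)]
    · intro i hi
      simp [mul_assoc, inv_mul_cancel₀ hd0, ZMod.val_natCast,
        Nat.mod_eq_of_lt (Finset.mem_range.mp hi)]
    · intro i hi
      simp [mul_assoc, mul_inv_cancel₀ hd0, ZMod.val_natCast,
        Nat.mod_eq_of_lt (Finset.mem_range.mp hi)]
  -- `p` times anything is a norm
  have hnormB : p • B = ∑ i ∈ Finset.range p, (σ' : G) ^ i • B := by
    simp only [hfixB, Finset.sum_const, Finset.card_range]
  have hcop : Nat.gcd p ψ.ker.index = 1 :=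
    (Nat.Prime.coprime_iff_not_dvd Fact.out).mpr D.not_dvd_index_ker
  have hbez := Nat.gcd_eq_gcd_ab p ψ.ker.index
  rw [hcop, Nat.cast_one] at hbez
  refine hb ⟨(Nat.gcdA p ψ.ker.index) • B + (Nat.gcdB p ψ.ker.index) • C, fun g hg => ?_, ?_⟩
  · rw [smul_add, smul_comm g, smul_comm g (Nat.gcdB p ψ.ker.index), hfixB, hCfix g hg]
  · simp only [smul_add, smul_comm _ (Nat.gcdA p ψ.ker.index),
      smul_comm _ (Nat.gcdB p ψ.ker.index), Finset.sum_add_distrib, ← Finset.smul_sum, ← hnormB,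
      ← hnormC]
    rw [← natCast_zsmul, ← natCast_zsmul, smul_smul, smul_smul, ← add_smul,
      mul_comm _ (p : ℤ), mul_comm _ (ψ.ker.index : ℤ), ← hbez, one_smul]

include D in
/-- The cyclotomic twist has non-zero `H²`. -/
theorem exists_ne_zero_H2 : ∃ z : continuousH2 (locR j) (ofChar ψ), z ≠ 0 := by
  obtain ⟨F, hF, hFk⟩ := D.exists_level_ker
  obtain ⟨E₀, hle, D₀⟩ := D.exists_sub ψ.ker hF hFk
  have K := D₀.kummerField fun g => g.2
  have : Finite (G ⧸ levelSubgroup (locR j) F) := finite_quotient_level j hF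
  have : (levelSubgroup (locR j) F).FiniteIndex := ⟨Subgroup.index_ne_zero_of_finite⟩
  have : ψ.ker.FiniteIndex := Subgroup.finiteIndex_of_le hFk
  have : Finite (G ⧸ ψ.ker) := Subgroup.finite_quotient_of_finiteIndex
  let : Fintype (G ⧸ ψ.ker) := Fintype.ofFinite _
  obtain ⟨m, η, hη, hmax⟩ := K.exists_maximal_root
  obtain ⟨b, hbE, hb⟩ := D.exists_sym_ne_zero K hle hη hmax
  set jH := j.comp ψ.ker.subtype
  let w : levelCocycles₂ (locR jH) (trivRep ψ.ker p) :=
    ⟨cup₁₁ (A := trivRep ψ.ker p) (B := trivRep ψ.ker p) (C := trivRep ψ.ker p)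
        (LinearMap.mul (ZMod p) (ZMod p)) ((K.kappa b).1 : ψ.ker → trivRep ψ.ker p)
        ((K.kappa η).1 : ψ.ker → trivRep ψ.ker p),
      cup₁₁_mem_levelCocycles₂ isEquivariantBilin_mul (isSmooth_trivRep _) (zc _) (zl _) (zc _)
        (zl _)⟩
  have hw : cls₂ (locR jH) (trivRep ψ.ker p) w ≠ 0 := fun h0 => hb ((K.sym_eq b η).trans h0)
  have heq : ∀ (g : ψ.ker) (a : trivRep ψ.ker p),
      (LinearMap.id : ZMod p →ₗ[ZMod p] ZMod p) ((trivRep ψ.ker p).ρ g a)
        = (Rep.res ψ.ker.subtype (ofChar ψ)).ρ g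
            ((LinearMap.id : ZMod p →ₗ[ZMod p] ZMod p) a) :=
    KummerField.ofChar_equiv_id (ψ := ψ.comp ψ.ker.subtype) fun g => g.2
  set z := mapH₂ (locR jH) (A := trivRep ψ.ker p) (B := Rep.res ψ.ker.subtype (ofChar ψ))
    LinearMap.id heq (cls₂ (locR jH) (trivRep ψ.ker p) w) with hz
  refine ⟨corH₂ (r := locR j) ψ.ker (ofChar ψ) ⟨F, hF, hFk⟩ z, fun h0 => hw ?_⟩
  have key : resH₂ (locR j) ψ.ker (ofChar ψ)
      (corH₂ (r := locR j) ψ.ker (ofChar ψ) ⟨F, hF, hFk⟩ z) = ψ.ker.index • z := by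
    rw [hz, mapH₂_cls]
    refine (congrArg (resH₂ (locR j) ψ.ker (ofChar ψ))
      (corH₂_cls (r := locR j) (A := ofChar ψ) ψ.ker ⟨F, hF, hFk⟩ _)).trans ?_
    rw [resH₂_cls, ← map_nsmul]
    refine congrArg _ (Subtype.ext (funext fun hk => ?_))
    obtain ⟨h, k⟩ := hk
    show ∑ x : G ⧸ ψ.ker, (ψ ((h : G) • (k : G) • x).out : ZMod p)
        * (K.kv b (cosetShift ψ.ker (h : G) ((k : G) • x))
          * K.kv η (cosetShift ψ.ker (k : G) x))
      = ψ.ker.index • (K.kv b h * K.kv η k)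
    rw [Subgroup.index, Nat.card_eq_fintype_card, ← Finset.card_univ, ← Finset.sum_const]
    refine Finset.sum_congr rfl fun x _ => ?_
    have hfix : ∀ (a : ψ.ker) (y : G ⧸ ψ.ker), (a : G) • y = y := fun a y => by
      induction y using QuotientGroup.induction_on with
      | H u =>
        refine QuotientGroup.eq.mpr ?_
        simpa [mul_assoc] using ψ.normal_ker.conj_mem _ (inv_mem a.2) u⁻¹
    have hshift : ∀ a : ψ.ker, cosetShift ψ.ker (a : G) x
        = ⟨x.out⁻¹ * (a : G) * x.out⁻¹⁻¹, ψ.normal_ker.conj_mem a a.2 x.out⁻¹⟩ := fun a =>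
      Subtype.ext (by
        show ((a : G) • x).out⁻¹ * (a : G) * x.out = _
        rw [hfix]
        simp only [inv_inv])
    rw [hfix k, hfix h, hshift, hshift, D.kv_conj K hle hbE, D.kv_conj_root K hη, map_inv,
      Units.val_inv_eq_inv_val]
    field_simp
  rw [h0, map_zero] at key
  have hu : (ψ.ker.index : ZMod p) ≠ 0 := by
    rw [Ne, ZMod.natCast_eq_zero_iff]; exact D.not_dvd_index_ker
  have key' := key.symm
  rw [← Nat.cast_smul_eq_nsmul (ZMod p), smul_eq_zero] at key'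
  have hz0 := key'.resolve_left hu
  have hback := eq_of_mapH₂_leftInverse (r := locR jH) (A := trivRep ψ.ker p)
    (B := Rep.res ψ.ker.subtype (ofChar ψ)) LinearMap.id heq LinearMap.id
    (KummerField.ofChar_equiv_id' (ψ := ψ.comp ψ.ker.subtype) fun g => g.2) (fun _ => rfl)
    (cls₂ (locR jH) (trivRep ψ.ker p) w)
  rw [← hback, ← hz, hz0, map_zero]

include D in
/-- `H²` of the cyclotomic twist is a line. -/
theorem finrank_H2 : finrank (ZMod p) (continuousH2 (locR j) (ofChar ψ)) = 1 := by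
  obtain ⟨F, hF, hFk⟩ := D.exists_level_ker
  obtain ⟨E₀, -, D₀⟩ := D.exists_sub ψ.ker hF hFk
  have h1 := (D₀.kummerField fun g => g.2).finrank_H2_ofChar (ψ := ψ.comp ψ.ker.subtype)
    fun g => g.2
  have : Finite (G ⧸ levelSubgroup (locR j) F) := finite_quotient_level j hF
  have : (levelSubgroup (locR j) F).FiniteIndex := ⟨Subgroup.index_ne_zero_of_finite⟩
  have : ψ.ker.FiniteIndex := Subgroup.finiteIndex_of_le hFk
  have : Finite (G ⧸ ψ.ker) := Subgroup.finite_quotient_of_finiteIndex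
  let : Fintype (G ⧸ ψ.ker) := Fintype.ofFinite _
  have hu : IsUnit (ψ.ker.index : ZMod p) := by
    rw [isUnit_iff_ne_zero, Ne, ZMod.natCast_eq_zero_iff]; exact D.not_dvd_index_ker
  have : FiniteDimensional (ZMod p)
      (continuousH2 ((locR j).comp ψ.ker.subtype) (Rep.res ψ.ker.subtype (ofChar ψ))) :=
    Module.finite_of_finrank_eq_succ h1
  have hinj := resH₂_injective (r := locR j) (A := ofChar ψ) ψ.ker ⟨F, hF, hFk⟩ hu
  obtain ⟨z, hz⟩ := D.exists_ne_zero_H2
  have : FiniteDimensional (ZMod p) (continuousH2 (locR j) (ofChar ψ)) :=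
    FiniteDimensional.of_injective _ hinj
  refine le_antisymm ((LinearMap.finrank_le_finrank_of_injective hinj).trans h1.le) ?_
  exact Module.finrank_pos_iff_exists_ne_zero.mpr ⟨z, hz⟩

end CycloField

end FLTAgent.LocalDuality
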