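import Fermat.Agent.LocalDuality.Classes

/-!
# Averaging a map that is equivariant for a subgroup

`avgMap` averages a map over cosets; `cor₂_map_res` and `mapH₂_avgMap` compare it with
corestriction in degree two.
-/

set_option autoImplicit false

noncomputable section

open CategoryTheory groupCohomology

namespace FLTAgent.LocalDuality

variable {k G : Type} [CommRing k] [Group G] {H : Subgroup G} {A C : Rep k G}

/-- The conjugate of a linear map by a coset representative. -/
def conjMap (f : A →ₗ[k] C) (x : G ⧸ H) : A →ₗ[k] C :=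
  (C.ρ x.out).comp (f.comp (A.ρ x.out⁻¹))

theorem conjMap_apply (f : A →ₗ[k] C) (x : G ⧸ H) (a : A) :
    conjMap f x a = C.ρ x.out (f (A.ρ x.out⁻¹ a)) := rfl

theorem conjMap_smul {f : A →ₗ[k] C} (hf : ∀ (h : H) (a : A), f (A.ρ h a) = C.ρ h (f a))
    (g : G) (x : G ⧸ H) (a : A) : conjMap f (g • x) (A.ρ g a) = C.ρ g (conjMap f x a) := by
  have e : (g • x).out⁻¹ * g = (cosetShift H g x : G) * x.out⁻¹ := by
    show (g • x).out⁻¹ * g = ((g • x).out⁻¹ * g * x.out) * x.out⁻¹
    rw [mul_inv_cancel_right]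
  rw [conjMap_apply, conjMap_apply, ← Module.End.mul_apply, ← map_mul, e, map_mul,
    Module.End.mul_apply, hf, ρ_out_shift]

variable [Fintype (G ⧸ H)]

/-- The average of a map over the cosets. -/
def avgMap (f : A →ₗ[k] C) : A →ₗ[k] C := ∑ x : G ⧸ H, conjMap f x

theorem avgMap_apply (f : A →ₗ[k] C) (a : A) :
    avgMap (H := H) f a = ∑ x : G ⧸ H, conjMap f x a := by
  simp [avgMap, LinearMap.sum_apply]

theorem avgMap_equiv {f : A →ₗ[k] C} (hf : ∀ (h : H) (a : A), f (A.ρ h a) = C.ρ h (f a))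
    (g : G) (a : A) : avgMap (H := H) f (A.ρ g a) = C.ρ g (avgMap (H := H) f a) := by
  rw [avgMap_apply, avgMap_apply, map_sum, ← sum_smul_eq g fun x => conjMap f x (A.ρ g a)]
  exact Finset.sum_congr rfl fun x _ => conjMap_smul hf g x a

/-- The auxiliary cochain in `cor₂_map_res`. -/
def avgCochain (f : A →ₗ[k] C) (z : G × G → A) (g : G) : C :=
  ∑ x : G ⧸ H, conjMap f (g • x) (z (g, x.out) - z ((g • x).out, (cosetShift H g x : G)))

/-- Corestriction of a restricted cocycle pushed by an `H`-equivariant map. -/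
theorem cor₂_map_res {f : A →ₗ[k] C} (hf : ∀ (h : H) (a : A), f (A.ρ h a) = C.ρ h (f a))
    {z : G × G → A} (hz : z ∈ cocycles₂ A) :
    cor₂ H C (fun p => f (z ((p.1 : G), (p.2 : G)))) + (d₁₂ C).hom (avgCochain (H := H) f z)
      = avgMap (H := H) f ∘ z := by
  rw [mem_cocycles₂_iff] at hz
  funext p
  obtain ⟨g, h⟩ := p
  simp only [Pi.add_apply, cor₂_apply, d₁₂_hom_apply, Function.comp_apply, avgCochain, avgMap_apply,
    map_sum, mul_smul]
  rw [← sum_smul_eq h fun x => conjMap f (g • x)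
      (z (g, x.out) - z ((g • x).out, (cosetShift H g x : G))),
    ← Finset.sum_sub_distrib, ← Finset.sum_add_distrib, ← Finset.sum_add_distrib,
    ← sum_smul_eq g fun y => conjMap f y (z (g, h)),
    ← sum_smul_eq h fun y => conjMap f (g • y) (z (g, h))]
  refine Finset.sum_congr rfl fun x _ => ?_
  have e0 : ∀ a : A, C.ρ (g • h • x).out (f a)
      = conjMap f (g • h • x) (A.ρ (g • h • x).out a) := fun a => by
    rw [conjMap_apply, ← Module.End.mul_apply (A.ρ _) (A.ρ _), ← map_mul, inv_mul_cancel, map_one,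
      Module.End.one_apply]
  rw [e0, ← conjMap_smul hf g (h • x), ← map_sub, ← map_add, ← map_add]
  refine congrArg _ ?_
  have e1 := hz g h x.out
  have e2 := hz g (h • x).out (cosetShift H h x : G)
  have e3 := hz (g • h • x).out (cosetShift H g (h • x) : G) (cosetShift H h x : G)
  rw [out_mul_cosetShift] at e2
  rw [out_mul_cosetShift] at e3
  rw [cosetShift_mul, Subgroup.coe_mul, map_sub]
  linear_combination (norm := abel) -e1 + e2 - e3

variable {r : G →* (AlgebraicClosure ℚ ≃ₐ[ℚ] AlgebraicClosure ℚ)}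

theorem isLevelConstant₁_avgCochain
    (hH : ∃ F : IntermediateField ℚ (AlgebraicClosure ℚ),
      FiniteDimensional ℚ F ∧ levelSubgroup r F ≤ H)
    (f : A →ₗ[k] C) {z : G × G → A} (hz : IsLevelConstant₂ r z) :
    IsLevelConstant₁ r (avgCochain (H := H) f z) := by
  obtain ⟨F₁, hF₁, h₁⟩ := hH
  obtain ⟨F₂, hF₂, h₂⟩ := hz
  obtain ⟨E, hE, hn, hle₁, hle₂⟩ := exists_normal_sup (r := r) hF₁ hF₂
  refine ⟨E, hE, fun g s hs => Finset.sum_congr rfl fun x _ => ?_⟩
  obtain ⟨hfix, t, ht, he⟩ := cosetShift_mul_of_mem (N := levelSubgroup r E) (hle₁.trans h₁)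
    g (s := s) hs x
  rw [mul_smul, hfix, he, Subgroup.coe_mul]
  congr 2
  · simpa using h₂ g x.out s 1 (hle₂ hs) (hle₂ (one_mem _))
  · simpa using h₂ (g • x).out (cosetShift H g x : G) 1 (t : G) (hle₂ (one_mem _)) (hle₂ ht)

variable (hH : ∃ F : IntermediateField ℚ (AlgebraicClosure ℚ),
    FiniteDimensional ℚ F ∧ levelSubgroup r F ≤ H)

theorem mapH₂_avgMap {f : A →ₗ[k] C} (hf : ∀ (h : H) (a : A), f (A.ρ h a) = C.ρ h (f a))
    (z : continuousH2 r A) :
    mapH₂ r (avgMap (H := H) f) (avgMap_equiv hf) z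
      = corH₂ H C hH (mapH₂ (r.comp H.subtype) (A := Rep.res H.subtype A)
          (B := Rep.res H.subtype C) f hf (resH₂ r H A z)) := by
  obtain ⟨c, rfl⟩ := cls₂_surjective z
  rw [resH₂_cls, mapH₂_cls, mapH₂_cls, corH₂_cls, cls₂_eq_iff]
  refine ⟨avgCochain (H := H) f (c : G × G → A), isLevelConstant₁_avgCochain hH f c.2.2, ?_⟩
  show _ = avgMap (H := H) f ∘ (c : G × G → A)
    - cor₂ H C (fun p => f ((c : G × G → A) ((p.1 : G), (p.2 : G))))
  rw [← cor₂_map_res hf c.2.1]
  abel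

end FLTAgent.LocalDuality
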