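import Fermat.Agent.LocalDuality.Classes
import Fermat.Prelude.Def_DualSelmer_ExtConditions
import Mathlib.LinearAlgebra.Dual.Lemmas

/-!
# Twisted duals, the evaluation pairing and connecting maps

`evBil` and `pair` for twisted duals, the properties `LeftNondeg` and `Detect₂`, and adjointness
of connecting maps (`alpha_delta₁`).
-/

set_option autoImplicit false

noncomputable section

open CategoryTheory groupCohomology Module

namespace FLTAgent.LocalDuality

variable {k G : Type} [Field k] [Group G]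
  {r : G →* (AlgebraicClosure ℚ ≃ₐ[ℚ] AlgebraicClosure ℚ)} {ψ : G →* kˣ}

variable (r ψ) in
/-- `ψ` is trivial on some level. -/
def SmoothChar : Prop :=
  ∃ F : IntermediateField ℚ (AlgebraicClosure ℚ), FiniteDimensional ℚ F ∧
    ∀ s ∈ levelSubgroup r F, ψ s = 1

theorem ofChar_ρ_apply (g : G) (c : k) : (ofChar ψ).ρ g c = (ψ g : k) * c := rfl

theorem isSmooth_dualTwist (hψ : SmoothChar r ψ) {M : Rep k G} (hM : IsSmooth r M) :
    IsSmooth r (M.dualTwist ψ) := by
  obtain ⟨F₁, hF₁, h₁⟩ := hM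
  obtain ⟨F₂, hF₂, h₂⟩ := hψ
  have := hF₁; have := hF₂
  refine ⟨F₁ ⊔ F₂, inferInstance, fun s hs => LinearMap.ext fun f => LinearMap.ext fun a => ?_⟩
  show (ψ s : k) * f (M.ρ s⁻¹ a) = f a
  rw [h₂ s (levelSubgroup_anti r le_sup_right hs),
    h₁ s⁻¹ (inv_mem (levelSubgroup_anti r le_sup_left hs))]
  simp

variable (ψ) in
/-- Evaluation `M × M^∨(ψ) → k(ψ)`. -/
abbrev evBil (M : Rep k G) : M →ₗ[k] M.dualTwist ψ →ₗ[k] ofChar ψ := Dual.eval k M

theorem isEquivariantBilin_evBil (M : Rep k G) :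
    IsEquivariantBilin (A := M) (B := M.dualTwist ψ) (C := ofChar ψ) (evBil ψ M) := fun g a f => by
  show (ψ g : k) * f (M.ρ g⁻¹ (M.ρ g a)) = (ψ g : k) * f a
  rw [← Module.End.mul_apply, ← map_mul, inv_mul_cancel, map_one, Module.End.one_apply]

theorem evBil_equiv {M : Rep k G} {c : M} (hc : c ∈ M.ρ.invariants) (g : G) (f : M.dualTwist ψ) :
    evBil ψ M c ((M.dualTwist ψ).ρ g f) = (ofChar ψ).ρ g (evBil ψ M c f) := by
  show (ψ g : k) * (show Dual k M from f) (M.ρ g⁻¹ c) = (ψ g : k) * (show Dual k M from f) c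
  rw [hc g⁻¹]

theorem invariant_equiv {M : Rep k G} {f : M.dualTwist ψ}
    (hf : f ∈ (M.dualTwist ψ).ρ.invariants) (g : G) (a : M) :
    (show Dual k M from f) (M.ρ g a) = (ofChar ψ).ρ g ((show Dual k M from f) a) := by
  have h := congrArg (fun u : Dual k M => u (M.ρ g a)) (hf g)
  refine h.symm.trans ?_
  show (ψ g : k) * (show Dual k M from f) (M.ρ g⁻¹ (M.ρ g a)) = _
  rw [← Module.End.mul_apply, ← map_mul, inv_mul_cancel, map_one, Module.End.one_apply]
  rfl

variable (r ψ) in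
/-- Evaluation of an invariant functional on `H²`. -/
def alpha (M : Rep k G) (f : (M.dualTwist ψ).ρ.invariants) :
    continuousH2 r M →ₗ[k] continuousH2 r (ofChar ψ) :=
  mapH₂ r (A := M) (B := ofChar ψ) (show Dual k M from f.1) (invariant_equiv f.2)

/-- The pairing of `H¹(M)` and `H¹(M^∨(ψ))`. -/
def pair (hψ : SmoothChar r ψ) (M : Rep k G) (hM : IsSmooth r M) :
    continuousH1 r M →ₗ[k] continuousH1 r (M.dualTwist ψ) →ₗ[k] continuousH2 r (ofChar ψ) :=
  cup r (isEquivariantBilin_evBil M) (isSmooth_dualTwist hψ hM)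

variable (ψ) in
/-- Left non-degeneracy of the pairing on `H¹`. -/
def LeftNondeg (hψ : SmoothChar r ψ) (M : Rep k G) (hM : IsSmooth r M) : Prop :=
  ∀ x, (∀ y, pair hψ M hM x y = 0) → x = 0

variable (r ψ) in
/-- Invariant functionals detect `H²`. -/
def Detect₂ (M : Rep k G) : Prop := ∀ z, (∀ f, alpha r ψ M f z = 0) → z = 0

variable {A B C : Rep k G}

/-- The dual of a short exact sequence. -/
def SmoothSES.dual (hψ : SmoothChar r ψ) (S : SmoothSES r A B C) :
    SmoothSES r (C.dualTwist ψ) (B.dualTwist ψ) (A.dualTwist ψ) where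
  ι := S.π.dualMap
  π := S.ι.dualMap
  ι_equiv g f := LinearMap.ext fun b => by
    show (ψ g : k) * (show Dual k C from f) (C.ρ g⁻¹ (S.π b))
      = (ψ g : k) * (show Dual k C from f) (S.π (B.ρ g⁻¹ b))
    rw [S.π_equiv]
  π_equiv g f := LinearMap.ext fun a => by
    show (ψ g : k) * (show Dual k B from f) (B.ρ g⁻¹ (S.ι a))
      = (ψ g : k) * (show Dual k B from f) (S.ι (A.ρ g⁻¹ a))
    rw [S.ι_equiv]
  ι_injective := LinearMap.dualMap_injective_of_surjective S.π_surjective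
  π_surjective := LinearMap.dualMap_surjective_of_injective S.ι_injective
  exact f := by
    show (show Dual k B from f) ∈ LinearMap.ker S.ι.dualMap ↔
      (show Dual k B from f) ∈ LinearMap.range S.π.dualMap
    rw [LinearMap.ker_dualMap_eq_dualAnnihilator_range,
      LinearMap.range_dualMap_eq_dualAnnihilator_ker]
    have : S.ι.range = S.π.ker := by
      ext b
      exact (S.exact b).symm
    rw [this]
  smooth := isSmooth_dualTwist hψ S.smooth

theorem SmoothSES.smooth_right (S : SmoothSES r A B C) : IsSmooth r C := by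
  obtain ⟨F, hF, h⟩ := S.smooth
  refine ⟨F, hF, fun s hs => LinearMap.ext fun c => ?_⟩
  obtain ⟨b, rfl⟩ := S.π_surjective c
  rw [← S.π_equiv, h s hs]; rfl

variable (hψ : SmoothChar r ψ) (S : SmoothSES r A B C)

theorem pair_map_π (x : continuousH1 r B) (y : continuousH1 r (C.dualTwist ψ)) :
    pair hψ C S.smooth_right (mapH₁ r S.π S.π_equiv x) y
      = pair hψ B S.smooth x (mapH₁ r (S.dual hψ).ι (S.dual hψ).ι_equiv y) :=
  (cup_adjoint (isEquivariantBilin_evBil B) (isSmooth_dualTwist hψ S.smooth)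
    (isEquivariantBilin_evBil C) (isSmooth_dualTwist hψ S.smooth_right) S.π S.π_equiv
    (S.dual hψ).ι (S.dual hψ).ι_equiv (fun _ _ => rfl) x y).symm

theorem pair_map_ι (x : continuousH1 r A) (y : continuousH1 r (B.dualTwist ψ)) :
    pair hψ A S.smooth_left x (mapH₁ r (S.dual hψ).π (S.dual hψ).π_equiv y)
      = pair hψ B S.smooth (mapH₁ r S.ι S.ι_equiv x) y :=
  cup_adjoint (isEquivariantBilin_evBil A) (isSmooth_dualTwist hψ S.smooth_left)
    (isEquivariantBilin_evBil B) (isSmooth_dualTwist hψ S.smooth) S.ι S.ι_equiv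
    (S.dual hψ).π (S.dual hψ).π_equiv (fun _ _ => rfl) x y

theorem pair_delta₀ (c : C.ρ.invariants) (y : continuousH1 r (A.dualTwist ψ)) :
    pair hψ A S.smooth_left (S.delta₀ c) y
      = - mapH₂ r (A := C.dualTwist ψ) (B := ofChar ψ) (evBil ψ C c.1) (evBil_equiv c.2)
          ((S.dual hψ).delta₁ y) := by
  obtain ⟨y, rfl⟩ := cls₁_surjective y
  rw [(S.dual hψ).delta₁_cls]
  show cup r _ _ (cls₁ r A (S.delta₀Z c.2 (S.π_sec c.1))) (cls₁ r _ y)
    = - mapH₂ r _ _ (cls₂ r _ _)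
  rw [cup_cls, mapH₂_cls, cupZ, eq_neg_iff_add_eq_zero, ← map_add, cls₂_eq_zero_iff]
  set yt : G → B.dualTwist ψ := fun g => (S.dual hψ).sec ((y.1 : G → A.dualTwist ψ) g)
  have hyt : ∀ g, (S.dual hψ).π (yt g) = (y.1 : G → A.dualTwist ψ) g := fun g =>
    (S.dual hψ).π_sec _
  refine ⟨fun g => evBil ψ B (S.sec c.1) (yt g),
    (IsLevelConstant₁.comp (zl y) (S.dual hψ).sec).comp (evBil ψ B (S.sec c.1)), ?_⟩
  have h := delta₀₁_compat (ι := S.ι) (π := S.π) (ι' := (S.dual hψ).ι) (π' := (S.dual hψ).π)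
    (βA := evBil ψ A) (βB := evBil ψ B) (βC := evBil ψ C) (isEquivariantBilin_evBil B)
    (fun _ _ => rfl) (fun _ _ => rfl) (S.dual hψ).π_equiv
    (b := S.sec c.1) (x := fun g => S.pre ((d₀₁ B).hom (S.sec c.1) g))
    (fun g => S.delta₀_pre c.2 (S.π_sec c.1) g) (yt := yt)
    (z := fun p => (S.dual hψ).pre ((d₁₂ (B.dualTwist ψ)).hom yt p))
    (fun p => (S.dual hψ).delta₁_pre (zc y) hyt p)
  simp only [hyt, S.π_sec] at h
  exact h.symm

/-- The connecting maps are adjoint for the pairing. -/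
theorem alpha_delta₁ (x : continuousH1 r C) (f : (A.dualTwist ψ).ρ.invariants) :
    alpha r ψ A f (S.delta₁ x) = pair hψ C S.smooth_right x ((S.dual hψ).delta₀ f) := by
  obtain ⟨x, rfl⟩ := cls₁_surjective x
  rw [S.delta₁_cls]
  show mapH₂ r _ _ (cls₂ r A _)
    = cup r _ _ (cls₁ r C x) (cls₁ r _ ((S.dual hψ).delta₀Z f.2 ((S.dual hψ).π_sec f.1)))
  rw [cup_cls, mapH₂_cls, cupZ, cls₂_eq_iff]
  set c : G → B := fun g => S.sec ((x.1 : G → C) g)
  have hc : ∀ g, S.π (c g) = (x.1 : G → C) g := fun g => S.π_sec _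
  set b' : B.dualTwist ψ := (S.dual hψ).sec f.1
  have hb' : (S.dual hψ).π b' = f.1 := (S.dual hψ).π_sec f.1
  refine ⟨fun g => evBil ψ B (c g) ((B.dualTwist ψ).ρ g b'), ?_, ?_⟩
  · obtain ⟨F₁, hF₁, h₁⟩ := IsLevelConstant₁.comp (zl x) S.sec
    obtain ⟨F₂, hF₂, h₂⟩ := (S.dual hψ).smooth
    have := hF₁; have := hF₂
    refine ⟨F₁ ⊔ F₂, inferInstance, fun g s hs => ?_⟩
    show evBil ψ B (c (g * s)) ((B.dualTwist ψ).ρ (g * s) b') = _
    rw [show c (g * s) = c g from h₁ g s (levelSubgroup_anti r le_sup_left hs), map_mul,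
      h₂ s (levelSubgroup_anti r le_sup_right hs), mul_one]
  · have h := delta₁₀_compat (ι := S.ι) (π := S.π) (ι' := (S.dual hψ).ι) (π' := (S.dual hψ).π)
      (βA := evBil ψ A) (βB := evBil ψ B) (βC := evBil ψ C) (isEquivariantBilin_evBil B)
      (fun _ _ => rfl) (fun _ _ => rfl) (S.dual hψ).ι_equiv S.π_ι
      (c := c) (w := fun p => S.pre ((d₁₂ B).hom c p))
      (fun p => S.delta₁_pre (zc x) hc p) (b' := b')
      (u := fun g => (S.dual hψ).pre ((d₀₁ (B.dualTwist ψ)).hom b' g))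
      (fun g => (S.dual hψ).delta₀_pre f.2 hb' g)
    simp only [hc, hb'] at h
    exact h.symm

end FLTAgent.LocalDuality
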