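import Fermat.Agent.LocalDuality.Duality.Basic
import Mathlib.GroupTheory.PGroup
import Mathlib.LinearAlgebra.Dual.Lemmas

/-!
# Dévissage of local duality along extensions

`Good` packages finiteness, nondegeneracy and detection; `Good.extension` shows it is stable under
extensions.
-/

set_option autoImplicit false

noncomputable section

open CategoryTheory groupCohomology Module

namespace FLTAgent.LocalDuality

variable {k G : Type} [Field k] [Group G]
  {r : G →* (AlgebraicClosure ℚ ≃ₐ[ℚ] AlgebraicClosure ℚ)} {ψ : G →* kˣ}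
  (hψ : SmoothChar r ψ)

/-- Finiteness, non-degeneracy and detection for one module. -/
structure Good (M : Rep k G) (hM : IsSmooth r M) : Prop where
  finite : Module.Finite k (continuousH1 r M)
  left : LeftNondeg ψ hψ M hM
  detect : Detect₂ r ψ M

theorem mem_invariants_of_eval {M : Rep k G} {c : M}
    (h : (Dual.eval k M c : (M.dualTwist ψ).dualTwist ψ) ∈
      ((M.dualTwist ψ).dualTwist ψ).ρ.invariants) : c ∈ M.ρ.invariants := by
  intro g
  refine sub_eq_zero.mp ((forall_dual_apply_eq_zero_iff k _).mp fun f => ?_)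
  have h1 : (ψ g : k) * (((ψ g⁻¹ : kˣ) : k) * f (M.ρ (g⁻¹)⁻¹ c)) = f c :=
    congrArg (fun u : Dual k (Dual k M) => u f) (h g)
  rw [inv_inv, map_inv, ← mul_assoc, Units.mul_inv, one_mul] at h1
  rw [map_sub, h1, sub_self]

/-- Right non-degeneracy from left non-degeneracy of the dual. -/
theorem eq_zero_of_pair_right {M : Rep k G} (hM : IsSmooth r M) [FiniteDimensional k M]
    (h : LeftNondeg ψ hψ (M.dualTwist ψ) (isSmooth_dualTwist hψ hM))
    {y : continuousH1 r (M.dualTwist ψ)} (hy : ∀ x, pair hψ M hM x y = 0) : y = 0 := by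
  have hev : ∀ (g : G) (a : M), (Dual.eval k M : M →ₗ[k] (M.dualTwist ψ).dualTwist ψ) (M.ρ g a)
      = ((M.dualTwist ψ).dualTwist ψ).ρ g (Dual.eval k M a) := fun g a => LinearMap.ext fun f => by
    show (show Dual k M from f) (M.ρ g a)
      = (ψ g : k) * (((ψ g⁻¹ : kˣ) : k) * (show Dual k M from f) (M.ρ (g⁻¹)⁻¹ a))
    rw [inv_inv, map_inv, ← mul_assoc, Units.mul_inv, one_mul]
  let e := evalEquiv k M
  have hinv : ∀ (g : G) (u : (M.dualTwist ψ).dualTwist ψ),
      (e.symm.toLinearMap : (M.dualTwist ψ).dualTwist ψ →ₗ[k] M)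
        (((M.dualTwist ψ).dualTwist ψ).ρ g u) = M.ρ g (e.symm.toLinearMap u) := fun g u => by
    apply e.injective
    show e (e.symm _) = e (M.ρ g (e.symm u))
    rw [e.apply_symm_apply]
    refine Eq.trans ?_ (hev g (e.symm u)).symm
    exact congrArg _ (e.apply_symm_apply u).symm
  refine h y fun u => ?_
  obtain ⟨u, rfl⟩ := cls₁_surjective u
  set x : continuousH1 r M := mapH₁ r (e.symm.toLinearMap : (M.dualTwist ψ).dualTwist ψ →ₗ[k] M)
    hinv (cls₁ r _ u)
  have hx : mapH₁ r (Dual.eval k M : M →ₗ[k] (M.dualTwist ψ).dualTwist ψ) hev x = cls₁ r _ u := by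
    show mapH₁ r _ _ (mapH₁ r _ _ (cls₁ r _ u)) = _
    rw [mapH₁_cls, mapH₁_cls]
    exact congrArg _ (Subtype.ext (Subtype.ext (funext fun g => e.apply_symm_apply _)))
  rw [← hx]
  have hflip : IsEquivariantBilin (A := M.dualTwist ψ) (B := M) (C := ofChar ψ)
      (evBil ψ M).flip := fun g f a => isEquivariantBilin_evBil M g a f
  have h1 := cup_adjoint (r := r) (isEquivariantBilin_evBil (M.dualTwist ψ))
    (isSmooth_dualTwist hψ (isSmooth_dualTwist hψ hM)) hflip hM LinearMap.id (fun _ _ => rfl)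
    (Dual.eval k M : M →ₗ[k] (M.dualTwist ψ).dualTwist ψ) hev (fun _ _ => rfl) y x
  refine h1.trans ?_
  have hid : mapH₁ r (LinearMap.id : M.dualTwist ψ →ₗ[k] M.dualTwist ψ) (fun _ _ => rfl) y = y := by
    obtain ⟨y, rfl⟩ := cls₁_surjective y
    rw [mapH₁_cls]
    rfl
  rw [hid, cup_flip (r := r) (isEquivariantBilin_evBil M) (isSmooth_dualTwist hψ hM) hM hflip x y]
  exact neg_eq_zero.mpr (hy x)

/-- A linear map kills the difference of two elements with equal images. -/
theorem map_sub_eq_zero_of_eq {V W : Type} [AddCommGroup V] [Module k V] [AddCommGroup W]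
    [Module k W] (φ : V →ₗ[k] W) {a b : V} (h : φ a = φ b) : φ (a - b) = 0 := by
  rw [map_sub, h, sub_self]

variable {A B C : Rep k G} (S : SmoothSES r A B C)

/-- The extension step of the dévissage. -/
theorem Good.extension (h2 : finrank k (continuousH2 r (ofChar ψ)) = 1)
    [FiniteDimensional k C]
    (hA : Good hψ A S.smooth_left) (hC : Good hψ C S.smooth_right)
    (hC' : Good hψ (C.dualTwist ψ) (isSmooth_dualTwist hψ S.smooth_right)) :
    Good hψ B S.smooth := by
  classical
  have : FiniteDimensional k (continuousH2 r (ofChar ψ)) :=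
    Module.finite_of_finrank_pos (by rw [h2]; exact one_pos)
  let inv : continuousH2 r (ofChar ψ) ≃ₗ[k] k :=
    LinearEquiv.ofFinrankEq _ _ (by rw [h2, Module.finrank_self])
  have := hA.finite
  have := hC.finite
  -- every functional on `H²(C^∨)` is evaluation at an invariant of `C`
  let θ : C.ρ.invariants →ₗ[k] Dual k (continuousH2 r (C.dualTwist ψ)) :=
    { toFun := fun c => inv.toLinearMap.comp
        (mapH₂ r (A := C.dualTwist ψ) (B := ofChar ψ) (evBil ψ C c.1) (evBil_equiv c.2))
      map_add' := fun c c' => LinearMap.ext fun z => by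
        obtain ⟨z, rfl⟩ := cls₂_surjective z
        show inv (mapH₂ r _ _ (cls₂ r _ z))
          = inv (mapH₂ r _ _ (cls₂ r _ z)) + inv (mapH₂ r _ _ (cls₂ r _ z))
        rw [mapH₂_cls, mapH₂_cls, mapH₂_cls, ← map_add inv, ← map_add]
        exact congrArg inv (congrArg _ (Subtype.ext (funext fun p =>
          LinearMap.congr_fun ((evBil ψ C).map_add c.1 c'.1) _)))
      map_smul' := fun a c => LinearMap.ext fun z => by
        obtain ⟨z, rfl⟩ := cls₂_surjective z
        show inv (mapH₂ r _ _ (cls₂ r _ z)) = a • inv (mapH₂ r _ _ (cls₂ r _ z))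
        rw [mapH₂_cls, mapH₂_cls, ← map_smul inv, ← map_smul]
        exact congrArg inv (congrArg _ (Subtype.ext (funext fun p =>
          LinearMap.congr_fun ((evBil ψ C).map_smul a c.1) _))) }
  have hθinj : Function.Injective θ.flip := by
    rw [injective_iff_map_eq_zero]
    intro z hz
    refine hC'.detect z fun f => ?_
    obtain ⟨c, hc⟩ := (evalEquiv k C).surjective (show Dual k (Dual k C) from f.1)
    have hcG : c ∈ C.ρ.invariants := mem_invariants_of_eval (ψ := ψ) (by
      have e : (Dual.eval k C c : (C.dualTwist ψ).dualTwist ψ) = f.1 := hc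
      rw [e]; exact f.2)
    obtain ⟨z', rfl⟩ := cls₂_surjective z
    have h0 := LinearMap.congr_fun hz ⟨c, hcG⟩
    refine inv.injective (Eq.trans ?_ (h0.trans (map_zero inv).symm))
    show inv (mapH₂ r _ _ (cls₂ r _ z')) = inv (mapH₂ r _ _ (cls₂ r _ z'))
    rw [mapH₂_cls, mapH₂_cls]
    exact congrArg inv (congrArg _ (Subtype.ext (funext fun p =>
      (LinearMap.congr_fun hc _).symm)))
  have hθsurj : Function.Surjective θ := by
    intro φ
    obtain ⟨Φ, hΦ⟩ := LinearMap.dualMap_surjective_of_injective hθinj φ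
    refine ⟨(evalEquiv k _).symm Φ, LinearMap.ext fun z => ?_⟩
    rw [← hΦ, LinearMap.dualMap_apply, ← apply_evalEquiv_symm_apply k _ (θ.flip z) Φ]
    rfl
  -- every functional on `H¹(C^∨)` is pairing with a class of `C`
  let πC : continuousH1 r C →ₗ[k] Dual k (continuousH1 r (C.dualTwist ψ)) :=
    (pair hψ C S.smooth_right).compr₂ inv.toLinearMap
  have hπinj : Function.Injective πC.flip := by
    rw [injective_iff_map_eq_zero]
    intro y hy
    refine eq_zero_of_pair_right hψ S.smooth_right hC'.left fun x => inv.injective ?_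
    exact (LinearMap.congr_fun hy x).trans (map_zero inv).symm
  have hπsurj : Function.Surjective πC := by
    intro φ
    obtain ⟨Φ, hΦ⟩ := LinearMap.dualMap_surjective_of_injective hπinj φ
    refine ⟨(evalEquiv k _).symm Φ, LinearMap.ext fun z => ?_⟩
    rw [← hΦ, LinearMap.dualMap_apply, ← apply_evalEquiv_symm_apply k _ (πC.flip z) Φ]
    rfl
  refine ⟨?_, ?_, ?_⟩
  · -- finiteness
    have hexact : LinearMap.ker (mapH₁ r S.π S.π_equiv)
        ≤ LinearMap.range (mapH₁ r S.ι S.ι_equiv) := fun x hx => S.exact_H₁B hx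
    have : Module.Finite k (LinearMap.ker (mapH₁ r S.π S.π_equiv)) :=
      Submodule.finiteDimensional_of_le hexact
    exact ⟨Submodule.fg_of_fg_map_of_fg_inf_ker (mapH₁ r S.π S.π_equiv)
      (IsNoetherian.noetherian _) (by rw [top_inf_eq]; exact Module.Finite.iff_fg.mp inferInstance)⟩
  · -- left non-degeneracy
    intro x hx
    have hπ : mapH₁ r S.π S.π_equiv x = 0 := hC.left _ fun y => by
      rw [pair_map_π hψ S]; exact hx _
    obtain ⟨a, rfl⟩ := S.exact_H₁B hπ
    set δ := (S.dual hψ).delta₁ with hδ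
    let φ : Dual k (continuousH1 r (A.dualTwist ψ)) :=
      inv.toLinearMap.comp (pair hψ A S.smooth_left a)
    have hker : LinearMap.ker δ ≤ LinearMap.ker φ := fun y hy => by
      obtain ⟨b, rfl⟩ := (S.dual hψ).exact_H₁C hy
      show inv (pair hψ A S.smooth_left a (mapH₁ r _ _ b)) = 0
      rw [pair_map_ι hψ S, hx, map_zero]
    obtain ⟨Φ, hΦ⟩ : ∃ Φ : Dual k (continuousH2 r (C.dualTwist ψ)), Φ.comp δ = φ := by
      have hmem : φ ∈ (LinearMap.ker δ).dualAnnihilator := by
        rw [Submodule.mem_dualAnnihilator]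
        exact fun y hy => hker hy
      rw [← LinearMap.range_dualMap_eq_dualAnnihilator_ker] at hmem
      exact hmem
    obtain ⟨c, hc⟩ := hθsurj Φ
    have hac : a + S.delta₀ c = 0 := hA.left _ fun y => inv.injective (by
      rw [map_add, LinearMap.add_apply, pair_delta₀ hψ S c y, map_add, map_neg, map_zero,
        add_neg_eq_zero]
      refine (LinearMap.congr_fun hΦ y).symm.trans ?_
      rw [← hc]
      rfl)
    rw [eq_neg_of_add_eq_zero_left hac, map_neg, S.mapH₁_delta₀, neg_zero]
  · -- detection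
    intro z hz
    have hπ : mapH₂ r S.π S.π_equiv z = 0 := hC.detect _ fun f => by
      obtain ⟨z, rfl⟩ := cls₂_surjective z
      have hf : (show B.dualTwist ψ from (S.dual hψ).ι f.1) ∈ (B.dualTwist ψ).ρ.invariants :=
        fun g => by rw [← (S.dual hψ).ι_equiv, f.2 g]
      refine Eq.trans ?_ (hz ⟨_, hf⟩)
      show mapH₂ r _ _ (mapH₂ r _ _ (cls₂ r _ z)) = mapH₂ r _ _ (cls₂ r _ z)
      rw [mapH₂_cls, mapH₂_cls, mapH₂_cls]
      rfl
    obtain ⟨w, rfl⟩ := S.exact_H₂B hπ
    let lamA : (A.dualTwist ψ).ρ.invariants →ₗ[k] k :=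
      { toFun := fun f => inv (alpha r ψ A f w)
        map_add' := fun f f' => by
          obtain ⟨w, rfl⟩ := cls₂_surjective w
          show inv (mapH₂ r _ _ (cls₂ r _ w))
            = inv (mapH₂ r _ _ (cls₂ r _ w)) + inv (mapH₂ r _ _ (cls₂ r _ w))
          rw [mapH₂_cls, mapH₂_cls, mapH₂_cls, ← map_add inv, ← map_add]
          exact congrArg inv (congrArg _ (Subtype.ext (funext fun p => rfl)))
        map_smul' := fun a f => by
          obtain ⟨w, rfl⟩ := cls₂_surjective w
          show inv (mapH₂ r _ _ (cls₂ r _ w)) = a • inv (mapH₂ r _ _ (cls₂ r _ w))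
          rw [mapH₂_cls, mapH₂_cls, ← map_smul inv, ← map_smul]
          exact congrArg inv (congrArg _ (Subtype.ext (funext fun p => rfl))) }
    have hker : LinearMap.ker (S.dual hψ).delta₀ ≤ LinearMap.ker lamA := by
      intro f hf
      obtain ⟨a₀, ha₀⟩ := cls₁_eq_zero_iff.1 (show cls₁ r _
        ((S.dual hψ).delta₀Z f.2 ((S.dual hψ).π_sec f.1)) = 0 from hf)
      set b := (S.dual hψ).sec f.1 - (S.dual hψ).ι a₀
      have hb : (show B.dualTwist ψ from b) ∈ (B.dualTwist ψ).ρ.invariants := fun g => by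
        have h1 := congrArg (S.dual hψ).ι (congrFun ha₀ g)
        change (S.dual hψ).ι ((C.dualTwist ψ).ρ g a₀ - a₀) = (S.dual hψ).ι ((S.dual hψ).pre _) at h1
        rw [(S.dual hψ).delta₀_pre f.2 ((S.dual hψ).π_sec f.1), map_sub, (S.dual hψ).ι_equiv,
          d₀₁_hom_apply] at h1
        show (B.dualTwist ψ).ρ g ((S.dual hψ).sec f.1 - (S.dual hψ).ι a₀)
          = (S.dual hψ).sec f.1 - (S.dual hψ).ι a₀
        rw [map_sub]
        linear_combination (norm := abel) -h1
      have hbf : (S.dual hψ).π b = f.1 := by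
        rw [map_sub, (S.dual hψ).π_sec, (S.dual hψ).π_ι, sub_zero]
      show inv (alpha r ψ A f w) = 0
      obtain ⟨w, rfl⟩ := cls₂_surjective w
      refine Eq.trans (congrArg inv ?_) ((congrArg inv (hz ⟨b, hb⟩)).trans (map_zero inv))
      show mapH₂ r _ _ (cls₂ r _ w) = mapH₂ r _ _ (mapH₂ r _ _ (cls₂ r _ w))
      rw [mapH₂_cls, mapH₂_cls, mapH₂_cls]
      exact congrArg _ (Subtype.ext (funext fun p => (LinearMap.congr_fun hbf _).symm))
    obtain ⟨Φ, hΦ⟩ : ∃ Φ : Dual k (continuousH1 r (C.dualTwist ψ)),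
        Φ.comp (S.dual hψ).delta₀ = lamA := by
      have hmem : lamA ∈ (LinearMap.ker (S.dual hψ).delta₀).dualAnnihilator := by
        rw [Submodule.mem_dualAnnihilator]
        exact fun y hy => hker hy
      rw [← LinearMap.range_dualMap_eq_dualAnnihilator_ker] at hmem
      exact hmem
    obtain ⟨x, hx⟩ := hπsurj Φ
    have hwx : w - S.delta₁ x = 0 := hA.detect _ fun f => by
      have e1 : inv (alpha r ψ A f w) = Φ ((S.dual hψ).delta₀ f) :=
        (LinearMap.congr_fun hΦ f).symm
      have e2 : inv (pair hψ C S.smooth_right x ((S.dual hψ).delta₀ f))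
          = Φ ((S.dual hψ).delta₀ f) := LinearMap.congr_fun hx _
      have e4 := inv.injective (e1.trans e2.symm)
      have e5 := alpha_delta₁ hψ S x f
      have e3 : alpha r ψ A f w = alpha r ψ A f (S.delta₁ x) := e4.trans e5.symm
      exact map_sub_eq_zero_of_eq (alpha r ψ A f) e3
    rw [sub_eq_zero.mp hwx, S.mapH₂_delta₁]

end FLTAgent.LocalDuality
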