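import Fermat.Agent.LocalDuality.Duality.Nonvanishing
import Fermat.Agent.LocalDuality.Duality.Average
import Mathlib.GroupTheory.Sylow

/-!
# Tate's local duality for finite modules over local fields

`good` proves duality for every finite module, reducing by corestriction from prime-to-`p` index
to the `p`-group case; `eq_zero_of_pair` is the nondegeneracy.
-/

set_option autoImplicit false

noncomputable section

open CategoryTheory groupCohomology Module

namespace FLTAgent.LocalDuality

variable {q : ℕ} [Fact q.Prime] {p : ℕ} [Fact p.Prime] {G : Type} [Group G]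
  {j : G →* LocalGal q} {E : IntermediateField ℚ_[q] (PadicAlgCl q)} {ζ : (PadicAlgCl q)ˣ}
  {ψ : G →* (ZMod p)ˣ}

theorem units_pow_prime_pow (u : (ZMod p)ˣ) (n : ℕ) : u ^ p ^ n = u := by
  induction n with
  | zero => simp
  | succ n ih => rw [pow_succ, pow_mul, ih]; exact Units.ext (ZMod.pow_card _)

namespace CycloField

include ψ in
/-- Corestriction of the cyclotomic twist from an open subgroup of index prime to `p` is
injective. -/
theorem corH₂_injective (D : CycloField p j E ζ ψ) (H : Subgroup G) [Fintype (G ⧸ H)]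
    {F : IntermediateField ℚ (AlgebraicClosure ℚ)} (hF : FiniteDimensional ℚ F)
    (hle : levelSubgroup (locR j) F ≤ H) (hu : IsUnit (H.index : ZMod p)) :
    Function.Injective (corH₂ (r := locR j) H (ofChar ψ) ⟨F, hF, hle⟩) := by
  obtain ⟨E', -, D'⟩ := D.exists_sub H hF hle
  have h1 : finrank (ZMod p) (continuousH2 ((locR j).comp H.subtype)
      (Rep.res H.subtype (ofChar ψ))) = 1 := D'.finrank_H2
  have h2 := D.finrank_H2
  have := Module.finite_of_finrank_eq_succ h1
  have := Module.finite_of_finrank_eq_succ h2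
  rw [LinearMap.injective_iff_surjective_of_finrank_eq_finrank (h1.trans h2.symm)]
  intro y
  refine ⟨resH₂ (locR j) H (ofChar ψ) (((H.index : ZMod p))⁻¹ • y), ?_⟩
  rw [corH₂_resH₂ (r := locR j) H ⟨F, hF, hle⟩, ← Nat.cast_smul_eq_nsmul (ZMod p), smul_smul,
    mul_inv_cancel₀ hu.ne_zero, one_smul]

/-- **Local duality**: finiteness of `H¹`, non-degeneracy of the pairing, detection of `H²` by
invariant functionals. -/
theorem good (D : CycloField p j E ζ ψ) {M : Rep (ZMod p) G} [FiniteDimensional (ZMod p) M]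
    (hM : IsSmooth (locR j) M) : Good D.smoothChar M hM := by
  classical
  obtain ⟨F₁, hF₁, h₁⟩ := D.exists_level_ker
  obtain ⟨F₂, hF₂, h₂⟩ := id hM
  obtain ⟨F, hF, hn, hle₁, hle₂⟩ := exists_normal_sup (r := locR j) hF₁ hF₂
  have := hn
  set N := levelSubgroup (locR j) F with hN
  have : Finite (G ⧸ N) := finite_quotient_level j hF
  obtain ⟨P⟩ : Nonempty (Sylow p (G ⧸ N)) := inferInstance
  set H := (P : Subgroup (G ⧸ N)).comap (QuotientGroup.mk' N) with hHdef
  have hNH : N ≤ H := fun s hs => by
    show QuotientGroup.mk' N s ∈ (P : Subgroup (G ⧸ N))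
    rw [show QuotientGroup.mk' N s = 1 from (QuotientGroup.eq_one_iff s).mpr hs]
    exact one_mem _
  have hHidx : H.index = (P : Subgroup (G ⧸ N)).index :=
    Subgroup.index_comap_of_surjective _ (QuotientGroup.mk'_surjective N)
  have : H.FiniteIndex := ⟨by rw [hHidx]; exact Subgroup.index_ne_zero_of_finite⟩
  have : Finite (G ⧸ H) := Subgroup.finite_quotient_of_finiteIndex
  let : Fintype (G ⧸ H) := Fintype.ofFinite _
  have hlev : ∃ F' : IntermediateField ℚ (AlgebraicClosure ℚ),
      FiniteDimensional ℚ F' ∧ levelSubgroup (locR j) F' ≤ H := ⟨F, hF, hNH⟩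
  have hu : IsUnit ((H.index : ℕ) : ZMod p) := by
    rw [hHidx, isUnit_iff_ne_zero, Ne, ZMod.natCast_eq_zero_iff]
    exact P.not_dvd_index
  have hpg : ∀ g : H, ∃ n, (g : G) ^ p ^ n ∈ N := fun g => by
    obtain ⟨n, hn⟩ := P.isPGroup' ⟨QuotientGroup.mk' N g, g.2⟩
    exact ⟨n, (QuotientGroup.eq_one_iff _).mp (congrArg Subtype.val hn)⟩
  have hψ1 : ∀ g : H, (ψ.comp H.subtype) g = 1 := fun g => by
    obtain ⟨n, hn⟩ := hpg g
    have h := MonoidHom.mem_ker.mp (hle₁.trans h₁ hn)
    rw [map_pow, units_pow_prime_pow] at h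
    exact h
  obtain ⟨E', -, D'⟩ := D.exists_sub H hF hNH
  have : FiniteDimensional (ZMod p) (Rep.res H.subtype M) :=
    inferInstanceAs (FiniteDimensional (ZMod p) M)
  have hgood := (D'.kummerField hψ1).good_of_pgroup D'.smoothChar hψ1
    (M := Rep.res H.subtype M) (isSmooth_res H hM) fun g => (hpg g).imp fun n hn => by
      show M.ρ ((g ^ p ^ n : H) : G) = 1
      rw [SubmonoidClass.coe_pow]
      exact h₂ _ (hle₂ hn)
  have hinj₁ : Function.Injective (resH₁ (locR j) H M) := resH₁_injective H hlev hu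
  have hinj := D.corH₂_injective H hF hNH hu
  refine ⟨?_, ?_, ?_⟩
  · have := hgood.finite
    exact Module.Finite.of_injective _ hinj₁
  · intro x hx
    refine hinj₁ ((hgood.left _ fun y => hinj ?_).trans (map_zero _).symm)
    refine Eq.trans ?_ (map_zero (corH₂ (r := locR j) H (ofChar ψ) hlev)).symm
    refine Eq.trans ?_ (hx (corH₁ (r := locR j) H (M.dualTwist ψ) hlev y))
    exact corH₂_cup (r := locR j) H hlev (isEquivariantBilin_evBil M)
      (isSmooth_dualTwist D.smoothChar hM) x y
  · intro z hz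
    refine resH₂_injective (r := locR j) (A := M) H hlev hu
      ((hgood.detect _ fun f => hinj ?_).trans (map_zero _).symm)
    refine Eq.trans ?_ (map_zero (corH₂ (r := locR j) H (ofChar ψ) hlev)).symm
    have hf : ∀ (h : H) (a : M), (show Dual (ZMod p) M from f.1) (M.ρ h a)
        = (ofChar ψ).ρ h ((show Dual (ZMod p) M from f.1) a) := fun h a =>
      invariant_equiv (ψ := ψ.comp H.subtype) (M := Rep.res H.subtype M) f.2 h a
    let f' : M →ₗ[ZMod p] ofChar ψ :=
      avgMap (H := H) (C := ofChar ψ) (show Dual (ZMod p) M from f.1)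
    have hf' : (show M.dualTwist ψ from f') ∈ (M.dualTwist ψ).ρ.invariants := fun g =>
      LinearMap.ext fun a => by
        show (ψ g : ZMod p) * f' (M.ρ g⁻¹ a) = f' a
        rw [avgMap_equiv (C := ofChar ψ) hf, ofChar_ρ_apply, ← mul_assoc, map_inv, Units.mul_inv,
          one_mul]
    refine Eq.trans ?_ (hz ⟨_, hf'⟩)
    exact (mapH₂_avgMap (r := locR j) (C := ofChar ψ) hlev hf z).symm

/-- Right non-degeneracy. -/
theorem eq_zero_of_pair (D : CycloField p j E ζ ψ) {M : Rep (ZMod p) G}
    [FiniteDimensional (ZMod p) M] (hM : IsSmooth (locR j) M)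
    {y : continuousH1 (locR j) (M.dualTwist ψ)} (hy : ∀ x, pair D.smoothChar M hM x y = 0) :
    y = 0 :=
  eq_zero_of_pair_right D.smoothChar hM (D.good (isSmooth_dualTwist D.smoothChar hM)).left hy

end CycloField

end FLTAgent.LocalDuality
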