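import Fermat.Agent.LocalDuality.Duality.Devissage
import Fermat.Agent.LocalDuality.H2Mu
import Mathlib.GroupTheory.PGroup

/-!
# Local duality for modules split by a `p`-extension of a field containing `μ_p`

`KummerField.good_of_pgroup` proves finiteness, nondegeneracy and detection for such a module, by
induction along a fixed vector.
-/

set_option autoImplicit false

noncomputable section

open CategoryTheory groupCohomology Module

namespace FLTAgent.LocalDuality

section Functoriality

variable {k G : Type} [CommRing k] [Group G]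
  {r : G →* (AlgebraicClosure ℚ ≃ₐ[ℚ] AlgebraicClosure ℚ)} {A B : Rep k G}

theorem eq_of_mapH₁_leftInverse (φ : A →ₗ[k] B) (hφ : ∀ (g : G) (a : A), φ (A.ρ g a) = B.ρ g (φ a))
    (ψ : B →ₗ[k] A) (hψ : ∀ (g : G) (b : B), ψ (B.ρ g b) = A.ρ g (ψ b))
    (h : ∀ a, ψ (φ a) = a) (x : continuousH1 r A) : mapH₁ r ψ hψ (mapH₁ r φ hφ x) = x := by
  obtain ⟨x, rfl⟩ := cls₁_surjective x
  rw [mapH₁_cls, mapH₁_cls]
  exact congrArg _ (Subtype.ext (Subtype.ext (funext fun g => h _)))

theorem eq_of_mapH₂_leftInverse (φ : A →ₗ[k] B) (hφ : ∀ (g : G) (a : A), φ (A.ρ g a) = B.ρ g (φ a))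
    (ψ : B →ₗ[k] A) (hψ : ∀ (g : G) (b : B), ψ (B.ρ g b) = A.ρ g (ψ b))
    (h : ∀ a, ψ (φ a) = a) (x : continuousH2 r A) : mapH₂ r ψ hψ (mapH₂ r φ hφ x) = x := by
  obtain ⟨x, rfl⟩ := cls₂_surjective x
  rw [mapH₂_cls, mapH₂_cls]
  exact congrArg _ (Subtype.ext (funext fun g => h _))

end Functoriality

variable {q : ℕ} [Fact q.Prime] {p : ℕ} [Fact p.Prime] {G : Type} [Group G] {j : G →* LocalGal q}
  {E : IntermediateField ℚ_[q] (PadicAlgCl q)} {ζ : (PadicAlgCl q)ˣ} {ψ : G →* (ZMod p)ˣ}

namespace KummerField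

variable (K : KummerField p j E ζ)

include K in
/-- `H¹` of the trivial module is finite. -/
theorem finite_H1 : Finite (continuousH1 (locR j) (trivRep G p)) := by
  have := K.finite
  set P := (powMonoidHom p : Eˣ →* Eˣ).range.toAddSubgroup
  have hP : P ≤ K.kummer.ker := by
    rintro b ⟨c, hc⟩
    rw [AddMonoidHom.mem_ker, show b = p • Additive.ofMul c from hc.symm, map_nsmul,
      ← Nat.cast_smul_eq_nsmul (ZMod p), ZMod.natCast_self, zero_smul]
  have hidx : P.index ≠ 0 := by
    have h : (powMonoidHom p : Eˣ →* Eˣ).range.index ≠ 0 := by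
      rw [local_index_pow_range q E p]
      refine mul_ne_zero (mul_ne_zero ?_ (Fact.out : p.Prime).ne_zero) ?_
      · have : NeZero p := ⟨(Fact.out : p.Prime).ne_zero⟩
        have : Finite (powMonoidHom p : Eˣ →* Eˣ).ker := by
          rw [show (powMonoidHom p : Eˣ →* Eˣ).ker = rootsOfUnity p E by
            ext x; simp [MonoidHom.mem_ker, mem_rootsOfUnity]]
          infer_instance
        exact Nat.card_pos.ne'
      · split_ifs
        · exact pow_ne_zero _ (Fact.out : p.Prime).ne_zero
        · exact one_ne_zero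
    rwa [index_range_pow_eq]
  have : Finite (Additive Eˣ ⧸ P) :=
    Nat.finite_of_card_ne_zero (show Nat.card (Additive Eˣ ⧸ P) ≠ 0 from hidx)
  refine Finite.of_surjective (QuotientAddGroup.lift P K.kummer hP) fun x => ?_
  obtain ⟨b, rfl⟩ := K.kummer_surjective x
  exact ⟨QuotientAddGroup.mk b, QuotientAddGroup.lift_mk _ _ _⟩

variable (hψ : SmoothChar (locR j) ψ) (h1 : ∀ g, ψ g = 1)

include h1 in
theorem ofChar_equiv_id (g : G) (a : trivRep G p) :
    (LinearMap.id : ZMod p →ₗ[ZMod p] ZMod p) ((trivRep G p).ρ g a)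
      = (ofChar ψ).ρ g ((LinearMap.id : ZMod p →ₗ[ZMod p] ZMod p) a) := by
  show (show ZMod p from a) = (ψ g : ZMod p) * (show ZMod p from a)
  rw [h1, Units.val_one, one_mul]

include h1 in
theorem ofChar_equiv_id' (g : G) (a : ofChar ψ) :
    (LinearMap.id : ZMod p →ₗ[ZMod p] ZMod p) ((ofChar ψ).ρ g a)
      = (trivRep G p).ρ g ((LinearMap.id : ZMod p →ₗ[ZMod p] ZMod p) a) := by
  show (ψ g : ZMod p) * (show ZMod p from a) = (show ZMod p from a)
  rw [h1, Units.val_one, one_mul]

include K h1 in
theorem finrank_H2_ofChar : finrank (ZMod p) (continuousH2 (locR j) (ofChar ψ)) = 1 := by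
  let f := mapH₂ (locR j) (A := trivRep G p) (B := ofChar ψ) LinearMap.id (ofChar_equiv_id h1)
  let f' := mapH₂ (locR j) (A := ofChar ψ) (B := trivRep G p) LinearMap.id (ofChar_equiv_id' h1)
  have h₁ : ∀ x, f' (f x) = x := fun x =>
    eq_of_mapH₂_leftInverse (r := locR j) (A := trivRep G p) (B := ofChar ψ) LinearMap.id
      (ofChar_equiv_id h1) LinearMap.id (ofChar_equiv_id' h1) (fun _ => rfl) x
  have h₂ : ∀ x, f (f' x) = x := fun x =>
    eq_of_mapH₂_leftInverse (r := locR j) (A := ofChar ψ) (B := trivRep G p) LinearMap.id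
      (ofChar_equiv_id' h1) LinearMap.id (ofChar_equiv_id h1) (fun _ => rfl) x
  exact (LinearEquiv.ofLinearMap f f' (LinearMap.ext h₂) (LinearMap.ext h₁)).finrank_eq.symm.trans
    K.finrank_H2

include K h1 in
/-- The base case: a line with trivial action. -/
theorem good_of_line {M : Rep (ZMod p) G} (hM : IsSmooth (locR j) M)
    (htriv : ∀ g, M.ρ g = 1) (hdim : finrank (ZMod p) M = 1) : Good hψ M hM := by
  have : FiniteDimensional (ZMod p) M := Module.finite_of_finrank_eq_succ hdim
  let e : M ≃ₗ[ZMod p] ZMod p := LinearEquiv.ofFinrankEq _ _ (by rw [hdim, finrank_self])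
  have he : ∀ (g : G) (a : M), e.toLinearMap (M.ρ g a) = (trivRep G p).ρ g (e.toLinearMap a) :=
    fun g a => by rw [htriv]; rfl
  have he' : ∀ (g : G) (a : trivRep G p), e.symm.toLinearMap ((trivRep G p).ρ g a)
      = M.ρ g (e.symm.toLinearMap a) := fun g a => by rw [htriv]; rfl
  have hinv : ∀ a, mapH₁ (locR j) (A := trivRep G p) (B := M) e.symm.toLinearMap he'
      (mapH₁ (locR j) (A := M) (B := trivRep G p) e.toLinearMap he a) = a := fun a =>
    eq_of_mapH₁_leftInverse (r := locR j) (A := M) (B := trivRep G p) e.toLinearMap he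
      e.symm.toLinearMap he' (fun m => e.symm_apply_apply m) a
  have hinj₁ : Function.Injective (mapH₁ (locR j) (A := M) (B := trivRep G p) e.toLinearMap he) :=
    fun a b hab => (hinv a).symm.trans ((congrArg _ hab).trans (hinv b))
  have := K.finite_H1
  refine ⟨?_, ?_, ?_⟩
  · have := Finite.of_injective _ hinj₁
    exact Module.Finite.of_finite
  · intro x hx
    refine hinj₁ ?_
    rw [map_zero]
    by_contra hne
    obtain ⟨w, hw⟩ := K.exists_cup_ne_zero hne
    refine hw ?_
    rw [cup_skew (mapH₁ (locR j) e.toLinearMap he x) w K, neg_eq_zero]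
    let φ : trivRep G p →ₗ[ZMod p] M.dualTwist ψ :=
      (LinearMap.llcomp (ZMod p) M (ZMod p) (ZMod p)).flip e.toLinearMap ∘ₗ
        LinearMap.mul (ZMod p) (ZMod p)
    have hφ : ∀ (g : G) (b : trivRep G p),
        φ ((trivRep G p).ρ g b) = (M.dualTwist ψ).ρ g (φ b) := fun g b => LinearMap.ext fun a => by
      show (show ZMod p from b) * e a
        = (ψ g : ZMod p) * ((show ZMod p from b) * e (M.ρ g⁻¹ a))
      rw [h1, htriv, Units.val_one, one_mul]; rfl
    unfold pair at hx
    have h0 := congrArg (mapH₂ (locR j) (A := ofChar ψ) (B := trivRep G p) LinearMap.id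
      (ofChar_equiv_id' h1)) (hx (mapH₁ (locR j) φ hφ w))
    rw [map_zero] at h0
    refine Eq.trans ?_ h0
    obtain ⟨x, rfl⟩ := cls₁_surjective x
    obtain ⟨w, rfl⟩ := cls₁_surjective w
    unfold mulCup
    rw [mapH₁_cls, mapH₁_cls, cup_cls, cup_cls, cupZ, cupZ, mapH₂_cls]
    refine congrArg _ (Subtype.ext (funext fun gk => ?_))
    show e ((x.1 : G → M) gk.1) * (show ZMod p from (w.1 : G → trivRep G p) gk.2)
      = (show Dual (ZMod p) M from (M.dualTwist ψ).ρ gk.1 (φ ((w.1 : G → trivRep G p) gk.2)))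
          ((x.1 : G → M) gk.1)
    rw [← hφ]
    exact mul_comm _ _
  · intro z hz
    have hf : (show M.dualTwist ψ from e.toLinearMap) ∈ (M.dualTwist ψ).ρ.invariants := fun g =>
      LinearMap.ext fun a => by
        show (ψ g : ZMod p) * e (M.ρ g⁻¹ a) = e a
        rw [h1, htriv, Units.val_one, one_mul]; rfl
    have h0 : mapH₂ (locR j) (A := ofChar ψ) (B := M) e.symm.toLinearMap (fun g a => by
        rw [htriv]; show e.symm ((ψ g : ZMod p) * (show ZMod p from a)) = e.symm _
        rw [h1, Units.val_one, one_mul]) (alpha (locR j) ψ M ⟨_, hf⟩ z) = z :=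
      eq_of_mapH₂_leftInverse (r := locR j) (A := M) (B := ofChar ψ) _ _ e.symm.toLinearMap _
        e.symm_apply_apply z
    exact h0.symm.trans ((congrArg _ (hz ⟨_, hf⟩)).trans (map_zero _))

end KummerField

/-- The quotient of a representation by the line of a fixed vector. -/
def quotRep {k : Type} [CommRing k] (M : Rep k G) (W : Submodule k M)
    (hW : ∀ g, W ≤ W.comap (M.ρ g)) : Rep k G :=
  Rep.of (M.ρ.quotient W hW)

theorem exists_fixed_vector {M : Rep (ZMod p) G} [FiniteDimensional (ZMod p) M]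
    (hdim : 0 < finrank (ZMod p) M) (hpg : ∀ g : G, ∃ n, M.ρ (g ^ p ^ n) = 1) :
    ∃ v : M, v ≠ 0 ∧ ∀ g, M.ρ g v = v := by
  have : Finite M := Module.finite_of_finite (ZMod p)
  let φ : G →* (Module.End (ZMod p) M)ˣ := M.ρ.toHomUnits
  have hP : IsPGroup p φ.range := by
    rintro ⟨_, g, rfl⟩
    obtain ⟨n, hn⟩ := hpg g
    exact ⟨n, Subtype.ext (by
      rw [SubmonoidClass.coe_pow, OneMemClass.coe_one, ← map_pow]
      exact Units.ext hn)⟩
  have hdvd : p ∣ Nat.card M := by
    rw [Module.natCard_eq_pow_finrank (K := ZMod p) (V := M), Nat.card_zmod]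
    exact dvd_pow_self p hdim.ne'
  obtain ⟨v, hv, hne⟩ := hP.exists_fixed_point_of_prime_dvd_card_of_fixed_point M hdvd
    (a := (0 : M)) (fun ⟨u, _⟩ => map_zero (u : Module.End (ZMod p) M))
  exact ⟨v, fun h => hne h.symm, fun g => hv ⟨φ g, g, rfl⟩⟩

theorem exists_pow_eq_one_dualTwist {M : Rep (ZMod p) G} (h1 : ∀ g, ψ g = 1) {g : G} {n : ℕ}
    (hn : M.ρ (g ^ p ^ n) = 1) : (M.dualTwist ψ).ρ (g ^ p ^ n) = 1 := by
  have hn' : M.ρ (g ^ p ^ n)⁻¹ = 1 := by
    have := map_mul M.ρ (g ^ p ^ n)⁻¹ (g ^ p ^ n)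
    rw [inv_mul_cancel, map_one, hn, mul_one] at this
    exact this.symm
  refine LinearMap.ext fun f => LinearMap.ext fun a => ?_
  show (ψ _ : ZMod p) * (show Dual (ZMod p) M from f) (M.ρ _ a) = _
  rw [h1, hn', Units.val_one, one_mul]; rfl

/-- Local duality when the module is split by a `p`-extension of a field containing `μ_p`. -/
theorem KummerField.good_of_pgroup (K : KummerField p j E ζ) (hψ : SmoothChar (locR j) ψ)
    (h1 : ∀ g, ψ g = 1) {M : Rep (ZMod p) G} [FiniteDimensional (ZMod p) M]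
    (hM : IsSmooth (locR j) M) (hpg : ∀ g : G, ∃ n, M.ρ (g ^ p ^ n) = 1) : Good hψ M hM := by
  induction hd : finrank (ZMod p) M using Nat.strong_induction_on generalizing M with
  | _ d ih =>
    rcases Nat.lt_or_ge d 2 with hd2 | hd2
    · rcases Nat.eq_zero_or_pos d with h0 | h0
      · have : Subsingleton M := Module.finrank_zero_iff.mp (hd.trans h0)
        refine ⟨?_, fun x _ => ?_, fun z _ => ?_⟩
        · have : Subsingleton (continuousH1 (locR j) M) := ⟨fun x y => by
            obtain ⟨x, rfl⟩ := cls₁_surjective x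
            obtain ⟨y, rfl⟩ := cls₁_surjective y
            exact congrArg _ (Subsingleton.elim _ _)⟩
          exact Module.Finite.of_finite
        · obtain ⟨x, rfl⟩ := cls₁_surjective x
          rw [Subsingleton.elim x 0, map_zero]
        · obtain ⟨z, rfl⟩ := cls₂_surjective z
          rw [Subsingleton.elim z 0, map_zero]
      · obtain ⟨v, hv0, hv⟩ := exists_fixed_vector (hd.symm ▸ h0) hpg
        refine K.good_of_line hψ h1 hM (fun g => LinearMap.ext fun a => ?_) (by omega)
        obtain ⟨c, rfl⟩ := exists_smul_eq_of_finrank_eq_one (K := ZMod p) (by omega) hv0 a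
        rw [map_smul, hv]; rfl
    · obtain ⟨v, hv0, hv⟩ := exists_fixed_vector (p := p) (M := M) (by omega) hpg
      set W : Submodule (ZMod p) M := Submodule.span (ZMod p) {v}
      have hW : ∀ g, W ≤ W.comap (M.ρ g) := fun g => by
        rw [Submodule.span_singleton_le_iff_mem, Submodule.mem_comap, hv]
        exact Submodule.mem_span_singleton_self v
      let A : Rep (ZMod p) G := Rep.trivial (ZMod p) G W
      let C := quotRep M W hW
      let S : SmoothSES (locR j) A M C :=
        { ι := W.subtype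
          π := W.mkQ
          ι_equiv := fun g a => by
            obtain ⟨c, hc⟩ := Submodule.mem_span_singleton.mp (show W from a).2
            show ((show W from a) : M) = M.ρ g ((show W from a) : M)
            rw [← hc, map_smul, hv]
          π_equiv := fun g b => rfl
          ι_injective := W.injective_subtype
          π_surjective := W.mkQ_surjective
          exact := fun b => (Submodule.Quotient.mk_eq_zero W).trans
            ⟨fun h => ⟨⟨b, h⟩, rfl⟩, fun ⟨a, ha⟩ => ha ▸ a.2⟩
          smooth := hM }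
      have : FiniteDimensional (ZMod p) C := inferInstanceAs (FiniteDimensional (ZMod p) (M ⧸ W))
      have hW1 : finrank (ZMod p) W = 1 := finrank_span_singleton hv0
      have hC : finrank (ZMod p) C + 1 = d := by
        have h := W.finrank_quotient_add_finrank
        rw [hW1, hd] at h
        exact h
      have hpgC : ∀ g : G, ∃ n, C.ρ (g ^ p ^ n) = 1 := fun g => by
        obtain ⟨n, hn⟩ := hpg g
        refine ⟨n, LinearMap.ext fun c => ?_⟩
        obtain ⟨b, rfl⟩ := S.π_surjective c
        rw [← S.π_equiv, hn]; rfl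
      exact Good.extension hψ S (K.finrank_H2_ofChar h1)
        (K.good_of_line hψ h1 S.smooth_left (fun _ => rfl) hW1)
        (ih _ (by omega) S.smooth_right hpgC rfl)
        (ih _ (by omega) (isSmooth_dualTwist hψ S.smooth_right)
          (fun g => (hpgC g).imp fun n hn => exists_pow_eq_one_dualTwist h1 hn)
          (Rep.finrank_dualTwist (ZMod p) C ψ))

end FLTAgent.LocalDuality
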